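import Mathlib

/-!
# S51, modules J3 / J5 : the `X₀(3)` and `X₀(5)` Hauptmodul relations

Pure field algebra on the `b`-invariants of a Weierstrass curve.

Translated `b`-invariants (the `b`-invariants of the curve after `x ↦ x + s`):
`B2 = b2 + 12 s`, `B4 = b4 + s b2 + 6 s²`, `B6 = b6 + 2 s b4 + s² b2 + 4 s³` (`= ψ₂²(s)`),
`B8 = b8 + 3 s b6 + 3 s² b4 + s³ b2 + 3 s⁴` (`= Ψ₃(s)`).

* `J3`: a root `x0` of `Ψ₃` gives `t` with `c4³ · t = Δ · (t + 27) · (t + 3)³`.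
* `J5`: `s, ρ` with `ρ ≠ 0`, `B6(s) = B2(s) ρ`, `B8(s) = 5 ρ² + B4(s) ρ` give `n` with
  `c4³ · n = Δ · (n² + 10 n + 5)³`.
-/

set_option autoImplicit false

namespace Fermat.Agent.S51.Hauptmodul

section Generic

variable {K : Type*} [Field K]

/-- translated `b₂` -/
def tB2 (b2 s : K) : K := b2 + 12 * s

/-- translated `b₄` -/
def tB4 (b2 b4 s : K) : K := b4 + s * b2 + 6 * s ^ 2

/-- translated `b₆` (the value at `s` of `ψ₂² = 4x³ + b₂x² + 2b₄x + b₆`) -/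
def tB6 (b2 b4 b6 s : K) : K := b6 + 2 * s * b4 + s ^ 2 * b2 + 4 * s ^ 3

/-- translated `b₈` (the value at `s` of `Ψ₃ = 3x⁴ + b₂x³ + 3b₄x² + 3b₆x + b₈`) -/
def tB8 (b2 b4 b6 b8 s : K) : K := b8 + 3 * s * b6 + 3 * s ^ 2 * b4 + s ^ 3 * b2 + 3 * s ^ 4

/-- `c₄` in terms of `b`-invariants -/
def c4of (b2 b4 : K) : K := b2 ^ 2 - 24 * b4

/-- `Δ` in terms of `b`-invariants -/
def discOf (b2 b4 b6 b8 : K) : K := -b2 ^ 2 * b8 - 8 * b4 ^ 3 - 27 * b6 ^ 2 + 9 * b2 * b4 * b6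

/-- the relation `4 b₈ = b₂ b₆ - b₄²` is translation invariant -/
theorem tB_relation (b2 b4 b6 b8 s : K) (hrel : 4 * b8 = b2 * b6 - b4 ^ 2) :
    4 * tB8 b2 b4 b6 b8 s = tB2 b2 s * tB6 b2 b4 b6 s - tB4 b2 b4 s ^ 2 := by
  simp only [tB2, tB4, tB6, tB8]
  linear_combination hrel

/-- `c₄` is translation invariant -/
theorem c4of_tB (b2 b4 s : K) : c4of (tB2 b2 s) (tB4 b2 b4 s) = c4of b2 b4 := by
  simp only [tB2, tB4, c4of]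
  ring

/-- `Δ` is translation invariant (given the relation `4 b₈ = b₂ b₆ - b₄²`) -/
theorem discOf_tB (b2 b4 b6 b8 s : K) (hrel : 4 * b8 = b2 * b6 - b4 ^ 2) :
    discOf (tB2 b2 s) (tB4 b2 b4 s) (tB6 b2 b4 b6 s) (tB8 b2 b4 b6 b8 s) = discOf b2 b4 b6 b8 := by
  simp only [tB2, tB4, tB6, tB8, discOf]
  linear_combination (-(6 * b2 * s + 36 * s ^ 2)) * hrel

/-- **J3, core**: if `b₈ = 0` (the `3`-torsion point has been translated to `x = 0`), then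
`b₂² Δ = b₄³ (b₂² - 27 b₄)`. -/
theorem j3_core (b2 b4 b6 : K) (hrel : b2 * b6 = b4 ^ 2) :
    b2 ^ 2 * discOf b2 b4 b6 0 = b4 ^ 3 * (b2 ^ 2 - 27 * b4) := by
  simp only [discOf]
  linear_combination (-27 * b2 * b6 - 27 * b4 ^ 2 + 9 * b2 ^ 2 * b4) * hrel

/-- **J3** (generic `b`-invariants): a root `x0` of `Ψ₃` gives a point on `X₀(3)` over `j`. -/
theorem J3_generic (b2 b4 b6 b8 x0 : K) (hrel : 4 * b8 = b2 * b6 - b4 ^ 2)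
    (h3 : 3 * x0 ^ 4 + b2 * x0 ^ 3 + 3 * b4 * x0 ^ 2 + 3 * b6 * x0 + b8 = 0)
    (hΔ : discOf b2 b4 b6 b8 ≠ 0) :
    ∃ t : K, c4of b2 b4 ^ 3 * t = discOf b2 b4 b6 b8 * (t + 27) * (t + 3) ^ 3 := by
  have h8 : tB8 b2 b4 b6 b8 x0 = 0 := by
    simp only [tB8]; linear_combination h3
  have hrel' := tB_relation b2 b4 b6 b8 x0 hrel
  rw [h8, mul_zero] at hrel'
  have hrel'' : tB2 b2 x0 * tB6 b2 b4 b6 x0 = tB4 b2 b4 x0 ^ 2 := by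
    linear_combination -hrel'
  have hcore := j3_core (tB2 b2 x0) (tB4 b2 b4 x0) (tB6 b2 b4 b6 x0) hrel''
  have hD : discOf (tB2 b2 x0) (tB4 b2 b4 x0) (tB6 b2 b4 b6 x0) 0 = discOf b2 b4 b6 b8 := by
    rw [← h8]; exact discOf_tB b2 b4 b6 b8 x0 hrel
  rw [hD] at hcore
  have hc4 := c4of_tB b2 b4 x0
  set B2 := tB2 b2 x0 with hB2
  set B4 := tB4 b2 b4 x0 with hB4
  set D := discOf b2 b4 b6 b8 with hDdef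
  by_cases hB40 : B4 = 0
  · -- then `B2 = 0` and `c4 = 0`; `t = -3` works
    have hB20 : B2 = 0 := by
      have : B2 ^ 2 * D = 0 := by rw [hcore, hB40]; ring
      rcases mul_eq_zero.mp this with h | h
      · exact pow_eq_zero_iff (two_ne_zero) |>.mp h
      · exact absurd h hΔ
    refine ⟨-3, ?_⟩
    have : c4of b2 b4 = 0 := by
      rw [← hc4]; simp only [c4of, hB20, hB40]; ring
    rw [this]; ring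
  · refine ⟨(B2 ^ 2 - 27 * B4) / B4, ?_⟩
    have hc4' : c4of b2 b4 = B2 ^ 2 - 24 * B4 := by rw [← hc4]; rfl
    rw [hc4']
    have e1 : (B2 ^ 2 - 27 * B4) / B4 + 27 = B2 ^ 2 / B4 := by field_simp; ring
    have e2 : (B2 ^ 2 - 27 * B4) / B4 + 3 = (B2 ^ 2 - 24 * B4) / B4 := by field_simp; ring
    rw [e1, e2]
    have e3 : D * (B2 ^ 2 / B4) * ((B2 ^ 2 - 24 * B4) / B4) ^ 3
        = (B2 ^ 2 * D) * (B2 ^ 2 - 24 * B4) ^ 3 / B4 ^ 4 := by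
      field_simp
    rw [e3, hcore]
    field_simp

/-- **J5, core**: with `ρ ≠ 0`, `b₆ = b₂ ρ`, `b₈ = 5 ρ² + b₄ ρ` (the `5`-isogeny kernel
`{O, ±P, ±2P}` has been translated so that `x(P) + x(2P) = 0` and `ρ = x(P)²`):
`c₄ ρ = b₄² - 20 b₄ ρ + 20 ρ²` and `Δ = 32 ρ² (b₄ - 20 ρ)`. -/
theorem j5_core (b2 b4 b6 b8 ρ : K) (hrel : 4 * b8 = b2 * b6 - b4 ^ 2)
    (h6 : b6 = b2 * ρ) (h8 : b8 = 5 * ρ ^ 2 + b4 * ρ) :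
    b2 ^ 2 * ρ = 20 * ρ ^ 2 + 4 * b4 * ρ + b4 ^ 2 ∧
    c4of b2 b4 * ρ = b4 ^ 2 - 20 * b4 * ρ + 20 * ρ ^ 2 ∧
    discOf b2 b4 b6 b8 = 32 * ρ ^ 2 * (b4 - 20 * ρ) := by
  have hG : b2 ^ 2 * ρ = 20 * ρ ^ 2 + 4 * b4 * ρ + b4 ^ 2 := by
    subst h6 h8; linear_combination -hrel
  refine ⟨hG, ?_, ?_⟩
  · simp only [c4of]; linear_combination hG
  · subst h6 h8
    simp only [discOf]
    linear_combination (8 * b4 - 32 * ρ) * hG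

/-- **J5** (generic, explicit form): `c₄ = 4 ρ (n² + 10 n + 5)`, `Δ = 64 ρ³ n` for
`n = (B4(s) - 20 ρ) / (2 ρ)`. -/
theorem J5_explicit [NeZero (2 : K)] (b2 b4 b6 b8 s ρ : K) (hρ : ρ ≠ 0)
    (hrel : 4 * b8 = b2 * b6 - b4 ^ 2)
    (h6 : tB6 b2 b4 b6 s = tB2 b2 s * ρ)
    (h8 : tB8 b2 b4 b6 b8 s = 5 * ρ ^ 2 + tB4 b2 b4 s * ρ) :
    c4of b2 b4 = 4 * ρ * (((tB4 b2 b4 s - 20 * ρ) / (2 * ρ)) ^ 2
        + 10 * ((tB4 b2 b4 s - 20 * ρ) / (2 * ρ)) + 5) ∧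
    discOf b2 b4 b6 b8 = 64 * ρ ^ 3 * ((tB4 b2 b4 s - 20 * ρ) / (2 * ρ)) := by
  have h2 : (2 : K) ≠ 0 := NeZero.ne 2
  obtain ⟨-, hc, hd⟩ := j5_core (tB2 b2 s) (tB4 b2 b4 s) (tB6 b2 b4 b6 s) (tB8 b2 b4 b6 b8 s) ρ
    (tB_relation b2 b4 b6 b8 s hrel) h6 h8
  rw [c4of_tB] at hc
  rw [discOf_tB _ _ _ _ _ hrel] at hd
  set B4 := tB4 b2 b4 s with hB4
  constructor
  · have : c4of b2 b4 = (B4 ^ 2 - 20 * B4 * ρ + 20 * ρ ^ 2) / ρ := by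
      rw [← hc]; field_simp
    rw [this]; field_simp; ring
  · rw [hd]; field_simp; ring

/-- **J5** (generic `b`-invariants): the data `(s, ρ)` of a cyclic subgroup of order `5` gives a
point on `X₀(5)` over `j`. -/
theorem J5_generic [NeZero (2 : K)] (b2 b4 b6 b8 s ρ : K) (hρ : ρ ≠ 0)
    (hrel : 4 * b8 = b2 * b6 - b4 ^ 2)
    (h6 : tB6 b2 b4 b6 s = tB2 b2 s * ρ)
    (h8 : tB8 b2 b4 b6 b8 s = 5 * ρ ^ 2 + tB4 b2 b4 s * ρ) :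
    ∃ n : K, c4of b2 b4 ^ 3 * n = discOf b2 b4 b6 b8 * (n ^ 2 + 10 * n + 5) ^ 3 := by
  obtain ⟨hc, hd⟩ := J5_explicit b2 b4 b6 b8 s ρ hρ hrel h6 h8
  refine ⟨(tB4 b2 b4 s - 20 * ρ) / (2 * ρ), ?_⟩
  set n := (tB4 b2 b4 s - 20 * ρ) / (2 * ρ) with hn
  rw [hc, hd]; ring

end Generic

section Weierstrass

variable (W : WeierstrassCurve ℤ)

theorem cast_b_relation :
    4 * (W.b₈ : ℚ) = (W.b₂ : ℚ) * (W.b₆ : ℚ) - (W.b₄ : ℚ) ^ 2 := by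
  have h := W.b_relation
  exact_mod_cast h

theorem cast_c4 : (W.c₄ : ℚ) = c4of (W.b₂ : ℚ) (W.b₄ : ℚ) := by
  simp only [WeierstrassCurve.c₄, c4of]
  push_cast
  ring

theorem cast_disc :
    (W.Δ : ℚ) = discOf (W.b₂ : ℚ) (W.b₄ : ℚ) (W.b₆ : ℚ) (W.b₈ : ℚ) := by
  simp only [WeierstrassCurve.Δ, discOf]
  push_cast
  ring

end Weierstrass

end Fermat.Agent.S51.Hauptmodul

namespace Fermat.Agent.S51

open Fermat.Agent.S51.Hauptmodul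

section Weierstrass

/-- **J3**: a rational root of `Ψ₃ = 3x⁴ + b₂x³ + 3b₄x² + 3b₆x + b₈` gives a rational point of
`X₀(3)` above `j = c₄³/Δ`. -/
theorem exists_t_of_rat_root (W : WeierstrassCurve ℤ) (hc4 : W.c₄ ≠ 0) (hΔ : W.Δ ≠ 0) (x : ℚ)
    (hx : 3 * x ^ 4 + (W.b₂ : ℚ) * x ^ 3 + 3 * (W.b₄ : ℚ) * x ^ 2 + 3 * (W.b₆ : ℚ) * x
      + (W.b₈ : ℚ) = 0) :
    ∃ t : ℚ, (W.c₄ : ℚ) ^ 3 * t = (W.Δ : ℚ) * ((t + 27) * (t + 3) ^ 3) := by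
  have _ := hc4
  have hΔq : (W.Δ : ℚ) ≠ 0 := by exact_mod_cast hΔ
  rw [Hauptmodul.cast_disc] at hΔq
  obtain ⟨t, ht⟩ := J3_generic (W.b₂ : ℚ) (W.b₄ : ℚ) (W.b₆ : ℚ) (W.b₈ : ℚ) x
    (Hauptmodul.cast_b_relation W) hx hΔq
  refine ⟨t, ?_⟩
  rw [Hauptmodul.cast_c4, Hauptmodul.cast_disc, ht]
  ring

/-- **J5**: rational data `(s, ρ)` of a cyclic subgroup of order `5` gives a rational point of
`X₀(5)` above `j = c₄³/Δ`. -/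
theorem exists_n_of_rat_pair (W : WeierstrassCurve ℤ) (s ρ : ℚ) (hρ : ρ ≠ 0)
    (h6 : (W.b₆ : ℚ) + 2 * s * W.b₄ + s ^ 2 * W.b₂ + 4 * s ^ 3 = ((W.b₂ : ℚ) + 12 * s) * ρ)
    (h8 : (W.b₈ : ℚ) + 3 * s * W.b₆ + 3 * s ^ 2 * W.b₄ + s ^ 3 * W.b₂ + 3 * s ^ 4 =
        5 * ρ ^ 2 + ((W.b₄ : ℚ) + s * W.b₂ + 6 * s ^ 2) * ρ) :
    ∃ n : ℚ, (W.c₄ : ℚ) ^ 3 * n = (W.Δ : ℚ) * (n ^ 2 + 10 * n + 5) ^ 3 := by
  obtain ⟨n, hn⟩ := J5_generic (W.b₂ : ℚ) (W.b₄ : ℚ) (W.b₆ : ℚ) (W.b₈ : ℚ) s ρ hρ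
    (Hauptmodul.cast_b_relation W) h6 h8
  exact ⟨n, by rw [Hauptmodul.cast_c4, Hauptmodul.cast_disc, hn]⟩

/-- **J5**, explicit form (for reuse): `c₄ = 4ρ(n² + 10n + 5)` and `Δ = 64ρ³n` with
`n = (B4(s) - 20ρ)/(2ρ)`. -/
theorem Hauptmodul.c4_disc_of_rat_pair (W : WeierstrassCurve ℤ) (s ρ : ℚ) (hρ : ρ ≠ 0)
    (h6 : (W.b₆ : ℚ) + 2 * s * W.b₄ + s ^ 2 * W.b₂ + 4 * s ^ 3 = ((W.b₂ : ℚ) + 12 * s) * ρ)
    (h8 : (W.b₈ : ℚ) + 3 * s * W.b₆ + 3 * s ^ 2 * W.b₄ + s ^ 3 * W.b₂ + 3 * s ^ 4 =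
        5 * ρ ^ 2 + ((W.b₄ : ℚ) + s * W.b₂ + 6 * s ^ 2) * ρ) :
    ∃ n : ℚ, (W.c₄ : ℚ) = 4 * ρ * (n ^ 2 + 10 * n + 5) ∧ (W.Δ : ℚ) = 64 * ρ ^ 3 * n := by
  obtain ⟨hc, hd⟩ := J5_explicit (W.b₂ : ℚ) (W.b₄ : ℚ) (W.b₆ : ℚ) (W.b₈ : ℚ) s ρ hρ
    (Hauptmodul.cast_b_relation W) h6 h8
  exact ⟨_, by rw [Hauptmodul.cast_c4]; exact hc, by rw [Hauptmodul.cast_disc]; exact hd⟩

end Weierstrass

end Fermat.Agent.S51
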