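import Mathlib
import Fermat.Prelude.Def_FLTPrelim_GaloisRep

/-!
# S51 / Tors0: x-coordinate infrastructure for points of a Weierstrass curve

Generic (any field `F`): duplication formula on abscissas, points above a given
abscissa, coprimality of the two duplication polynomials, the 3-division polynomial,
and the Galois action on affine points.
-/

namespace Fermat.Agent.S51

open WeierstrassCurve WeierstrassCurve.Affine

namespace Tors0

section generic

variable {F : Type*} [Field F] (E : WeierstrassCurve.Affine F)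

/-- `ψ₂² = 4x³ + b₂x² + 2b₄x + b₆` (denominator of the duplication formula). -/
def M (x : F) : F := 4 * x ^ 3 + E.b₂ * x ^ 2 + 2 * E.b₄ * x + E.b₆

/-- `x⁴ - b₄x² - 2b₆x - b₈` (numerator of the duplication formula). -/
def Nm (x : F) : F := x ^ 4 - E.b₄ * x ^ 2 - 2 * E.b₆ * x - E.b₈

/-- the 3-division polynomial `3x⁴ + b₂x³ + 3b₄x² + 3b₆x + b₈`, as a function. -/
def Psi3 (x : F) : F := 3 * x ^ 4 + E.b₂ * x ^ 3 + 3 * E.b₄ * x ^ 2 + 3 * E.b₆ * x + E.b₈

theorem Psi3_eq (x : F) : Psi3 E x = x * M E x - Nm E x := by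
  simp only [Psi3, M, Nm]; ring

theorem M_eq_sq {x y : F} (h : E.Equation x y) :
    M E x = (2 * y + E.a₁ * x + E.a₃) ^ 2 := by
  rw [Affine.equation_iff] at h
  simp only [M, WeierstrassCurve.b₂, WeierstrassCurve.b₄, WeierstrassCurve.b₆]
  linear_combination (-4 : F) * h

theorem M_eq_zero_iff {x y : F} (h : E.Equation x y) : M E x = 0 ↔ y = E.negY x y := by
  rw [M_eq_sq E h, Affine.negY]
  constructor
  · intro h0
    have := pow_eq_zero_iff (two_ne_zero) |>.mp h0
    linear_combination this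
  · intro h0
    have : 2 * y + E.a₁ * x + E.a₃ = 0 := by linear_combination h0
    rw [this]; ring

/-- `M` and `Nm` have no common zero on a curve with `Δ ≠ 0`. -/
theorem disc_eq_zero_of_M_Nm {x : F} (hM : M E x = 0) (hN : Nm E x = 0) : E.Δ = 0 := by
  simp only [M, Nm] at hM hN
  have hb := E.b_relation
  have e : E.Δ = (-(E.b₂ + 12 * x) ^ 2 * x + (E.b₂ + 12 * x) * (E.b₄ + x * E.b₂ + 6 * x ^ 2)
        + 32 * x * (E.b₄ + x * E.b₂ + 6 * x ^ 2)
        - 27 * (4 * x ^ 3 + E.b₂ * x ^ 2 + 2 * E.b₄ * x + E.b₆))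
        * (4 * x ^ 3 + E.b₂ * x ^ 2 + 2 * E.b₄ * x + E.b₆)
      + ((E.b₂ + 12 * x) ^ 2 - 32 * (E.b₄ + x * E.b₂ + 6 * x ^ 2))
        * (x ^ 4 - E.b₄ * x ^ 2 - 2 * E.b₆ * x - E.b₈) := by
    rw [WeierstrassCurve.Δ]
    linear_combination (-8 * E.b₄ - 2 * E.b₂ * x - 12 * x ^ 2) * hb
  rw [e, hM, hN]; ring

/-- Above every abscissa there is a point (algebraically closed field, `Δ ≠ 0`). -/
theorem exists_point [IsAlgClosed F] (hΔ : E.Δ ≠ 0) (x : F) : ∃ y : F, E.Nonsingular x y := by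
  obtain ⟨y, hy⟩ := IsAlgClosed.exists_root
    (Polynomial.C (1 : F) * Polynomial.X ^ 2 + Polynomial.C (E.a₁ * x + E.a₃) * Polynomial.X
      + Polynomial.C (-(x ^ 3 + E.a₂ * x ^ 2 + E.a₄ * x + E.a₆)))
    (by rw [Polynomial.degree_quadratic one_ne_zero]; decide)
  refine ⟨y, (Affine.equation_iff_nonsingular_of_Δ_ne_zero hΔ).mp ?_⟩
  rw [Affine.equation_iff]
  simp only [Polynomial.IsRoot, Polynomial.eval_add, Polynomial.eval_mul, Polynomial.eval_C,
    Polynomial.eval_pow, Polynomial.eval_X] at hy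
  linear_combination hy

/-- Two points with the same abscissa are equal or opposite. -/
theorem eq_or_eq_neg_of_X_eq {x y y' : F} (h : E.Nonsingular x y) (h' : E.Nonsingular x y') :
    Point.some x y h = Point.some x y' h' ∨ Point.some x y h = -Point.some x y' h' :=
  Point.X_eq_iff.mp rfl

variable [DecidableEq F]

/-- Doubling, case `M x = 0`: the point has order dividing two. -/
theorem add_self_of_M_eq {x y : F} (h : E.Nonsingular x y) (hM : M E x = 0) :
    Point.some x y h + Point.some x y h = 0 :=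
  Point.add_self_of_Y_eq ((M_eq_zero_iff E h.1).mp hM)

/-- Doubling, case `M x ≠ 0`: `x(2P) * M(x(P)) = Nm(x(P))`. -/
theorem add_self_of_M_ne {x y : F} (h : E.Nonsingular x y) (hM : M E x ≠ 0) :
    ∃ (x' y' : F) (h' : E.Nonsingular x' y'),
      Point.some x y h + Point.some x y h = Point.some x' y' h' ∧ x' * M E x = Nm E x := by
  have hy : y ≠ E.negY x y := fun hy => hM ((M_eq_zero_iff E h.1).mpr hy)
  refine ⟨_, _, _, Point.add_self_of_Y_ne hy, ?_⟩
  have hd : y - E.negY x y ≠ 0 := sub_ne_zero.mpr hy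
  have heq := (E.equation_iff x y).mp h.1
  rw [M_eq_sq E h.1, Affine.slope_of_Y_ne rfl hy]
  have e : y - E.negY x y = 2 * y + E.a₁ * x + E.a₃ := by rw [Affine.negY]; ring
  rw [e] at hd ⊢
  set d := 2 * y + E.a₁ * x + E.a₃ with hd_def
  set n := 3 * x ^ 2 + 2 * E.a₂ * x + E.a₄ - E.a₁ * y with hn_def
  have hℓ : n / d * d = n := div_mul_cancel₀ n hd
  generalize n / d = ℓ at hℓ
  simp only [Nm, Affine.addX, WeierstrassCurve.b₄, WeierstrassCurve.b₆, WeierstrassCurve.b₈]
  linear_combination (ℓ * d + n + E.a₁ * d) * hℓ + (-(E.a₁ ^ 2 + 4 * E.a₂ + 8 * x)) * heq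

/-- A point with `M x = 0` is not of exact order three (in fact `2P = 0`): used to show
that 3-torsion abscissas have `M x ≠ 0`. -/
theorem M_ne_of_three_nsmul {x y : F} (h : E.Nonsingular x y)
    (h3 : (3 : ℕ) • Point.some x y h = 0) : M E x ≠ 0 := by
  intro hM
  have h2 := add_self_of_M_eq E h hM
  have : Point.some x y h = 0 := by
    have e : (3 : ℕ) • Point.some x y h
        = (Point.some x y h + Point.some x y h) + Point.some x y h := by
      rw [show (3 : ℕ) = 2 + 1 from rfl, add_nsmul, two_nsmul, one_nsmul]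
    rw [e, h2, zero_add] at h3
    exact h3
  exact Point.some_ne_zero h this

/-- The abscissa of a nonzero 3-torsion point is a root of `Psi3`. -/
theorem Psi3_of_three_nsmul {x y : F} (h : E.Nonsingular x y)
    (h3 : (3 : ℕ) • Point.some x y h = 0) : Psi3 E x = 0 := by
  have hM := M_ne_of_three_nsmul E h h3
  obtain ⟨x', y', h', h2, hx'⟩ := add_self_of_M_ne E h hM
  have e : (3 : ℕ) • Point.some x y h
      = (Point.some x y h + Point.some x y h) + Point.some x y h := by
    rw [show (3 : ℕ) = 2 + 1 from rfl, add_nsmul, two_nsmul, one_nsmul]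
  rw [e, h2] at h3
  have h4 : Point.some x' y' h' = -Point.some x y h := eq_neg_of_add_eq_zero_left h3
  have hxx : x' = x := Point.X_eq_iff.mpr (Or.inr h4)
  rw [Psi3_eq, ← hx', hxx]; ring

/-- Conversely, a point above a root of `Psi3` (on a curve with `Δ ≠ 0`) is a nonzero
3-torsion point. -/
theorem three_nsmul_of_Psi3 (hΔ : E.Δ ≠ 0) {x y : F} (h : E.Nonsingular x y)
    (hx : Psi3 E x = 0) : (3 : ℕ) • Point.some x y h = 0 := by
  have hM : M E x ≠ 0 := by
    intro hM
    apply hΔ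
    apply disc_eq_zero_of_M_Nm E hM
    have := Psi3_eq E x
    rw [hx, hM] at this
    linear_combination this
  obtain ⟨x', y', h', h2, hx'⟩ := add_self_of_M_ne E h hM
  have hxx : x' = x := by
    apply mul_right_cancel₀ hM
    rw [hx']
    have := Psi3_eq E x
    rw [hx] at this
    linear_combination this
  subst hxx
  have e : (3 : ℕ) • Point.some x' y h
      = (Point.some x' y h + Point.some x' y h) + Point.some x' y h := by
    rw [show (3 : ℕ) = 2 + 1 from rfl, add_nsmul, two_nsmul, one_nsmul]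
  rw [e, h2]
  rcases eq_or_eq_neg_of_X_eq E h' h with h5 | h5
  · exfalso
    rw [h5] at h2
    exact Point.some_ne_zero h (add_eq_left.mp h2)
  · rw [h5]; exact neg_add_cancel _

/-- Existence of a nonzero 3-torsion point over an algebraically closed field in which
`3 ≠ 0`, for a curve with `Δ ≠ 0`. -/
theorem exists_three_torsion [IsAlgClosed F] (h3 : (3 : F) ≠ 0) (hΔ : E.Δ ≠ 0) :
    ∃ P : E.Point, P ≠ 0 ∧ (3 : ℕ) • P = 0 := by
  obtain ⟨x, hx⟩ := IsAlgClosed.exists_root
    (Polynomial.C (3 : F) * Polynomial.X ^ 4 + Polynomial.C E.b₂ * Polynomial.X ^ 3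
      + Polynomial.C (3 * E.b₄) * Polynomial.X ^ 2 + Polynomial.C (3 * E.b₆) * Polynomial.X
      + Polynomial.C E.b₈)
    (by
      have hdeg : (Polynomial.C (3 : F) * Polynomial.X ^ 4 + Polynomial.C E.b₂ * Polynomial.X ^ 3
          + Polynomial.C (3 * E.b₄) * Polynomial.X ^ 2 + Polynomial.C (3 * E.b₆) * Polynomial.X
          + Polynomial.C E.b₈).natDegree = 4 := by
        compute_degree!
      intro h0
      have := Polynomial.natDegree_eq_of_degree_eq_some h0
      rw [hdeg] at this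
      exact absurd this (by decide))
  obtain ⟨y, hy⟩ := exists_point E hΔ x
  refine ⟨Point.some x y hy, Point.some_ne_zero hy, three_nsmul_of_Psi3 E hΔ hy ?_⟩
  simp only [Polynomial.IsRoot, Polynomial.eval_add, Polynomial.eval_mul, Polynomial.eval_C,
    Polynomial.eval_pow, Polynomial.eval_X] at hx
  rw [Psi3]
  linear_combination hx

end generic

section galois

/-- The Galois action of the Prelude on an affine point is coordinatewise. -/
theorem smul_some {R S K : Type*} [CommRing R] [CommRing S] [Field K] [DecidableEq K]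
    {W' : Affine R} [Algebra R S] [Algebra R K] [Algebra S K] [IsScalarTower R S K]
    (σ : K ≃ₐ[S] K) {x y : K} (h : (W'⁄K).Nonsingular x y) :
    ∃ h' : (W'⁄K).Nonsingular (σ x) (σ y),
      σ • Point.some x y h = Point.some (σ x) (σ y) h' :=
  ⟨_, rfl⟩

/-- `AlgebraicClosure ℚ` is Galois over `ℚ` for the default `ℚ`-algebra structure. -/
theorem isGalois_rat : IsGalois ℚ (AlgebraicClosure ℚ) := by
  have h : (AlgebraicClosure.instAlgebra ℚ : Algebra ℚ (AlgebraicClosure ℚ))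
      = DivisionRing.toRatAlgebra := Subsingleton.elim _ _
  rw [← h]; infer_instance

/-- An element of `AlgebraicClosure ℚ` fixed by all automorphisms is rational. -/
theorem fixed_rat (z : AlgebraicClosure ℚ)
    (hz : ∀ σ : AlgebraicClosure ℚ ≃ₐ[ℚ] AlgebraicClosure ℚ, σ z = z) :
    ∃ q : ℚ, algebraMap ℚ (AlgebraicClosure ℚ) q = z :=
  haveI := isGalois_rat
  (InfiniteGalois.mem_range_algebraMap_iff_fixed z).mpr hz

end galois

section model

/-- The curve over `AlgebraicClosure ℚ` whose torsion appears in `ModRepIsIrreducible`. -/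
noncomputable abbrev EK (W : WeierstrassCurve ℤ) : Affine (AlgebraicClosure ℚ) :=
  (W.map (Int.castRingHom ℚ))⁄(AlgebraicClosure ℚ)

variable (W : WeierstrassCurve ℤ)

theorem EK_b₂ : (EK W).b₂ = algebraMap ℚ (AlgebraicClosure ℚ) (W.b₂ : ℚ) := by
  show ((W.map (Int.castRingHom ℚ)).map (algebraMap ℚ (AlgebraicClosure ℚ))).b₂ = _
  rw [WeierstrassCurve.map_b₂, WeierstrassCurve.map_b₂]
  rfl

theorem EK_b₄ : (EK W).b₄ = algebraMap ℚ (AlgebraicClosure ℚ) (W.b₄ : ℚ) := by
  show ((W.map (Int.castRingHom ℚ)).map (algebraMap ℚ (AlgebraicClosure ℚ))).b₄ = _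
  rw [WeierstrassCurve.map_b₄, WeierstrassCurve.map_b₄]
  rfl

theorem EK_b₆ : (EK W).b₆ = algebraMap ℚ (AlgebraicClosure ℚ) (W.b₆ : ℚ) := by
  show ((W.map (Int.castRingHom ℚ)).map (algebraMap ℚ (AlgebraicClosure ℚ))).b₆ = _
  rw [WeierstrassCurve.map_b₆, WeierstrassCurve.map_b₆]
  rfl

theorem EK_b₈ : (EK W).b₈ = algebraMap ℚ (AlgebraicClosure ℚ) (W.b₈ : ℚ) := by
  show ((W.map (Int.castRingHom ℚ)).map (algebraMap ℚ (AlgebraicClosure ℚ))).b₈ = _
  rw [WeierstrassCurve.map_b₈, WeierstrassCurve.map_b₈]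
  rfl

theorem EK_Δ : (EK W).Δ = algebraMap ℚ (AlgebraicClosure ℚ) (W.Δ : ℚ) := by
  show ((W.map (Int.castRingHom ℚ)).map (algebraMap ℚ (AlgebraicClosure ℚ))).Δ = _
  rw [WeierstrassCurve.map_Δ, WeierstrassCurve.map_Δ]
  rfl

theorem EK_Δ_ne (hΔ : W.Δ ≠ 0) : (EK W).Δ ≠ 0 := by
  rw [EK_Δ]
  simpa using hΔ

/-- `M` of the base-changed curve at a rational abscissa. -/
theorem M_EK (q : ℚ) : M (EK W) (algebraMap ℚ (AlgebraicClosure ℚ) q)
    = algebraMap ℚ (AlgebraicClosure ℚ)
        (4 * q ^ 3 + (W.b₂ : ℚ) * q ^ 2 + 2 * (W.b₄ : ℚ) * q + (W.b₆ : ℚ)) := by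
  rw [M, EK_b₂, EK_b₄, EK_b₆]; simp

/-- `Nm` of the base-changed curve at a rational abscissa. -/
theorem Nm_EK (q : ℚ) : Nm (EK W) (algebraMap ℚ (AlgebraicClosure ℚ) q)
    = algebraMap ℚ (AlgebraicClosure ℚ)
        (q ^ 4 - (W.b₄ : ℚ) * q ^ 2 - 2 * (W.b₆ : ℚ) * q - (W.b₈ : ℚ)) := by
  rw [Nm, EK_b₄, EK_b₆, EK_b₈]; simp

/-- `Psi3` of the base-changed curve at a rational abscissa. -/
theorem Psi3_EK (q : ℚ) : Psi3 (EK W) (algebraMap ℚ (AlgebraicClosure ℚ) q)
    = algebraMap ℚ (AlgebraicClosure ℚ)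
        (3 * q ^ 4 + (W.b₂ : ℚ) * q ^ 3 + 3 * (W.b₄ : ℚ) * q ^ 2 + 3 * (W.b₆ : ℚ) * q
          + (W.b₈ : ℚ)) := by
  rw [Psi3, EK_b₂, EK_b₄, EK_b₆, EK_b₈]; simp

end model

end Tors0

end Fermat.Agent.S51
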