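import Mathlib
import Fermat.Prelude.Def_FLTPrelim_GaloisRep
import Fermat.Prelude.Def_FLTPrelim_ModularRep
import Fermat.Agent.S51.Tors0
import Fermat.Agent.Lib.TorsionLine

/-!
# S51 / Tors3: a reducible mod-3 representation gives a rational root of the
3-division polynomial.
-/

namespace Fermat.Agent.S51

open WeierstrassCurve WeierstrassCurve.Affine

theorem exists_rat_root_of_not_irr3 (W : WeierstrassCurve ℤ) (hΔ : W.Δ ≠ 0)
    (h : ¬ W.ModRepIsIrreducible 3) :
    ∃ x : ℚ, 3 * x ^ 4 + (W.b₂ : ℚ) * x ^ 3 + 3 * (W.b₄ : ℚ) * x ^ 2 + 3 * (W.b₆ : ℚ) * x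
      + (W.b₈ : ℚ) = 0 := by
  classical
  have hΔK := Tors0.EK_Δ_ne W hΔ
  -- the 3-division polynomial over the algebraic closure
  set p : Polynomial (AlgebraicClosure ℚ) :=
    Polynomial.C (3 : AlgebraicClosure ℚ) * Polynomial.X ^ 4
      + Polynomial.C (Tors0.EK W).b₂ * Polynomial.X ^ 3
      + Polynomial.C (3 * (Tors0.EK W).b₄) * Polynomial.X ^ 2
      + Polynomial.C (3 * (Tors0.EK W).b₆) * Polynomial.X
      + Polynomial.C (Tors0.EK W).b₈ with hp_def
  have h3K : (3 : AlgebraicClosure ℚ) ≠ 0 := three_ne_zero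
  have hdeg : p.natDegree = 4 := by
    rw [hp_def]; compute_degree!
  have hp0 : p ≠ 0 := by
    intro h0
    rw [h0, Polynomial.natDegree_zero] at hdeg
    exact absurd hdeg (by decide)
  have hcard : p.roots.toFinset.card ≤ 12 := by
    calc p.roots.toFinset.card ≤ Multiset.card p.roots := Multiset.toFinset_card_le _
      _ ≤ p.natDegree := Polynomial.card_roots' p
      _ ≤ 12 := by rw [hdeg]; norm_num
  have hx : ∀ (x y : AlgebraicClosure ℚ) (hxy : (Tors0.EK W).Nonsingular x y),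
      (3 : ℤ) • (Point.some x y hxy) = 0 → x ∈ p.roots.toFinset := by
    intro x y hxy h3
    have h3' : (3 : ℕ) • (Point.some x y hxy) = 0 := by
      rw [← natCast_zsmul]; exact h3
    have hpsi := Tors0.Psi3_of_three_nsmul (Tors0.EK W) hxy h3'
    rw [Multiset.mem_toFinset, Polynomial.mem_roots hp0, Polynomial.IsRoot, hp_def]
    simp only [Polynomial.eval_add, Polynomial.eval_mul, Polynomial.eval_C,
      Polynomial.eval_pow, Polynomial.eval_X]
    rw [Tors0.Psi3] at hpsi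
    linear_combination hpsi
  have hnt : ∃ P : (Tors0.EK W).Point, P ≠ 0 ∧ (3 : ℤ) • P = 0 := by
    obtain ⟨P, hP0, hP3⟩ := Tors0.exists_three_torsion (Tors0.EK W) h3K hΔK
    refine ⟨P, hP0, ?_⟩
    rw [← hP3, ← natCast_zsmul]; rfl
  obtain ⟨q, y, hq, h3⟩ :=
    Fermat.Agent.Lib.TorsionLine.exists_rat_x_three W p.roots.toFinset hcard hx hnt h
  refine ⟨q, ?_⟩
  have h3' : (3 : ℕ) • (Point.some _ y hq) = 0 := by
    rw [← natCast_zsmul]; exact h3
  have hpsi := Tors0.Psi3_of_three_nsmul (Tors0.EK W) hq h3'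
  rw [Tors0.Psi3_EK] at hpsi
  exact (algebraMap ℚ (AlgebraicClosure ℚ)).injective (by rw [hpsi, map_zero])

end Fermat.Agent.S51
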