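import Mathlib

set_option autoImplicit false

namespace Fermat.Agent.S51.X15Core

/-- The quadratic relation between `β = B4/ρ` and `ζ = x3²/ρ` coming from a rational
`3`-subgroup and a rational `5`-subgroup (singular model of `X₀(15)`). -/
theorem quad_rel (B2 B4 ρ x3 : ℚ) (hρ : ρ ≠ 0)
    (hG : B2 ^ 2 * ρ = 20 * ρ ^ 2 + 4 * B4 * ρ + B4 ^ 2)
    (hΨ : 3 * x3 ^ 4 + B2 * x3 ^ 3 + 3 * B4 * x3 ^ 2 + 3 * (B2 * ρ) * x3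
      + (5 * ρ ^ 2 + B4 * ρ) = 0) :
    (1 - x3 ^ 2 / ρ) ^ 3 * (B4 / ρ) ^ 2
      + 2 * (5 - 3 * (x3 ^ 2 / ρ) - 9 * (x3 ^ 2 / ρ) ^ 2 + 7 * (x3 ^ 2 / ρ) ^ 3) * (B4 / ρ)
      + (25 - 180 * (x3 ^ 2 / ρ) - 90 * (x3 ^ 2 / ρ) ^ 2 - 20 * (x3 ^ 2 / ρ) ^ 3
          + 9 * (x3 ^ 2 / ρ) ^ 4) = 0 := by
  have key : ρ * ((3 * x3 ^ 4 + 3 * B4 * x3 ^ 2 + 5 * ρ ^ 2 + B4 * ρ) ^ 2)
      - (20 * ρ ^ 2 + 4 * B4 * ρ + B4 ^ 2) * (x3 ^ 3 + 3 * ρ * x3) ^ 2 = 0 := by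
    linear_combination
      (ρ * ((3 * x3 ^ 4 + 3 * B4 * x3 ^ 2 + 5 * ρ ^ 2 + B4 * ρ) - B2 * (x3 ^ 3 + 3 * ρ * x3))) * hΨ
        + (x3 ^ 3 + 3 * ρ * x3) ^ 2 * hG
  field_simp
  linear_combination key

/-- `ζ = -3` is impossible over `ℚ`. -/
theorem zeta_ne_neg_three (B2 B4 ρ x3 : ℚ) (hρ : ρ ≠ 0)
    (hG : B2 ^ 2 * ρ = 20 * ρ ^ 2 + 4 * B4 * ρ + B4 ^ 2)
    (hΨ : 3 * x3 ^ 4 + B2 * x3 ^ 3 + 3 * B4 * x3 ^ 2 + 3 * (B2 * ρ) * x3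
      + (5 * ρ ^ 2 + B4 * ρ) = 0) :
    x3 ^ 2 / ρ ≠ -3 := by
  intro h
  have hx : x3 ^ 2 = -3 * ρ := by
    field_simp at h
    linarith
  have hB4 : B4 = 4 * ρ := by
    have h1 : 8 * ρ * (4 * ρ - B4) = 0 := by
      have hx4 : x3 ^ 4 = 9 * ρ ^ 2 := by
        have : x3 ^ 4 = (x3 ^ 2) ^ 2 := by ring
        rw [this, hx]; ring
      have hx3 : x3 ^ 3 = -3 * ρ * x3 := by
        have : x3 ^ 3 = x3 ^ 2 * x3 := by ring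
        rw [this, hx]
      rw [hx4, hx3, hx] at hΨ
      linear_combination hΨ
    rcases mul_eq_zero.mp h1 with h2 | h2
    · exact absurd (by simpa using h2) hρ
    · linarith
  have hB2 : B2 ^ 2 = 52 * ρ := by
    have h1 : ρ * (B2 ^ 2 - 52 * ρ) = 0 := by
      rw [hB4] at hG
      linear_combination hG
    rcases mul_eq_zero.mp h1 with h2 | h2
    · exact absurd h2 hρ
    · linarith
  have h0 : 52 * x3 ^ 2 + 3 * B2 ^ 2 = 0 := by rw [hx, hB2]; ring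
  have hx0 : x3 ^ 2 = 0 := by nlinarith [sq_nonneg x3, sq_nonneg B2]
  rw [hx0] at hx
  exact hρ (by linarith)

theorem beta_cases (ζ β : ℚ)
    (hq : (1 - ζ) ^ 3 * β ^ 2 + 2 * (5 - 3 * ζ - 9 * ζ ^ 2 + 7 * ζ ^ 3) * β
      + (25 - 180 * ζ - 90 * ζ ^ 2 - 20 * ζ ^ 3 + 9 * ζ ^ 4) = 0)
    (h1 : ζ ≠ 1) (h3 : ζ ≠ -3) (hβ : β ≠ 20)
    (hE15 : ∀ X Y : ℚ, Y ^ 2 = X * (X + 9) * (X - 16) →
      X = 0 ∨ X = -9 ∨ X = 16 ∨ X = 36 ∨ X = -4) :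
    β = -5 ∨ β = 55 / 4 ∨ β = 0 ∨ β = -60 := by
  have h1' : ζ - 1 ≠ 0 := sub_ne_zero.mpr h1
  have h3' : ζ + 3 ≠ 0 := by
    intro h; exact h3 (by linarith)
  have hD : (ζ + 3) * (ζ - 1) ≠ 0 := mul_ne_zero h3' h1'
  have hN : (9 * ((1 - ζ) ^ 3 * β + (5 - 3 * ζ - 9 * ζ ^ 2 + 7 * ζ ^ 3))) ^ 2
      = ((9 * (ζ - 1)) * (9 * (ζ - 1) + 9) * (9 * (ζ - 1) - 16)) * ((ζ + 3) * (ζ - 1)) ^ 2 := by
    linear_combination (81 * (1 - ζ) ^ 3) * hq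
  have hY : (9 * ((1 - ζ) ^ 3 * β + (5 - 3 * ζ - 9 * ζ ^ 2 + 7 * ζ ^ 3)) / ((ζ + 3) * (ζ - 1))) ^ 2
      = (9 * (ζ - 1)) * (9 * (ζ - 1) + 9) * (9 * (ζ - 1) - 16) := by
    rw [div_pow, hN, mul_div_assoc, div_self (pow_ne_zero 2 hD), mul_one]
  rcases hE15 _ _ hY with h | h | h | h | h
  · exact absurd (by linarith : ζ = 1) h1
  · have hz : ζ = 0 := by linarith
    subst hz
    left
    have : (β + 5) ^ 2 = 0 := by linear_combination hq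
    have := pow_eq_zero_iff (n := 2) (by norm_num) |>.mp this
    linarith
  · have hz : ζ = 25 / 9 := by linarith
    subst hz
    right; left
    have : (β - 55 / 4) ^ 2 = 0 := by linear_combination (-729 / 4096 : ℚ) * hq
    have := pow_eq_zero_iff (n := 2) (by norm_num) |>.mp this
    linarith
  · have hz : ζ = 5 := by linarith
    subst hz
    right; right; left
    have : β * (β - 20) = 0 := by linear_combination (-1 / 64 : ℚ) * hq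
    rcases mul_eq_zero.mp this with h | h
    · exact h
    · exact absurd (by linarith) hβ
  · have hz : ζ = 5 / 9 := by linarith
    subst hz
    right; right; right
    have : (β + 60) * (β - 20) = 0 := by linear_combination (729 / 64 : ℚ) * hq
    rcases mul_eq_zero.mp this with h | h
    · linarith
    · exact absurd (by linarith) hβ


/-- Algebraic core of the 3-5 lemma: a rational `3`-subgroup (abscissa `s + x3`) and a rational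
`5`-subgroup (abscissas `s ± √ρ`) on a curve with invariants `b2 b4 b6 b8` force one of four
`X₀(5)`-parameters `n`, granted the list of rational points of `Y² = X(X+9)(X-16)`. -/
theorem core (b2 b4 b6 b8 s ρ x3 : ℚ) (hb : 4 * b8 = b2 * b6 - b4 ^ 2) (hρ : ρ ≠ 0)
    (h6 : b6 + 2 * s * b4 + s ^ 2 * b2 + 4 * s ^ 3 = (b2 + 12 * s) * ρ)
    (h8 : b8 + 3 * s * b6 + 3 * s ^ 2 * b4 + s ^ 3 * b2 + 3 * s ^ 4
      = 5 * ρ ^ 2 + (b4 + s * b2 + 6 * s ^ 2) * ρ)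
    (h3 : 3 * (s + x3) ^ 4 + b2 * (s + x3) ^ 3 + 3 * b4 * (s + x3) ^ 2 + 3 * b6 * (s + x3)
      + b8 = 0)
    (hne : x3 ^ 2 ≠ ρ)
    (hΔ : -b2 ^ 2 * b8 - 8 * b4 ^ 3 - 27 * b6 ^ 2 + 9 * b2 * b4 * b6 ≠ 0)
    (hE15 : ∀ X Y : ℚ, Y ^ 2 = X * (X + 9) * (X - 16) →
      X = 0 ∨ X = -9 ∨ X = 16 ∨ X = 36 ∨ X = -4) :
    ∃ n : ℚ, (n = -25 / 2 ∨ n = -25 / 8 ∨ n = -10 ∨ n = -40) ∧
      (b2 ^ 2 - 24 * b4) ^ 3 * n
        = (-b2 ^ 2 * b8 - 8 * b4 ^ 3 - 27 * b6 ^ 2 + 9 * b2 * b4 * b6)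
          * (n ^ 2 + 10 * n + 5) ^ 3 := by
  obtain ⟨B2, hB2⟩ : ∃ B2 : ℚ, B2 = b2 + 12 * s := ⟨_, rfl⟩
  obtain ⟨B4, hB4⟩ : ∃ B4 : ℚ, B4 = b4 + s * b2 + 6 * s ^ 2 := ⟨_, rfl⟩
  have hG : B2 ^ 2 * ρ = 20 * ρ ^ 2 + 4 * B4 * ρ + B4 ^ 2 := by
    subst hB2 hB4
    linear_combination (-1 : ℚ) * hb - (b2 + 12 * s) * h6 + 4 * h8
  have hΨ : 3 * x3 ^ 4 + B2 * x3 ^ 3 + 3 * B4 * x3 ^ 2 + 3 * (B2 * ρ) * x3
      + (5 * ρ ^ 2 + B4 * ρ) = 0 := by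
    subst hB2 hB4
    linear_combination h3 - 3 * x3 * h6 - h8
  have hΔ' : -b2 ^ 2 * b8 - 8 * b4 ^ 3 - 27 * b6 ^ 2 + 9 * b2 * b4 * b6
      = 32 * ρ ^ 2 * (B4 - 20 * ρ) := by
    subst hB2 hB4
    linear_combination
      (-27 * ((b6 + 2 * s * b4 + s ^ 2 * b2 + 4 * s ^ 3) + (b2 + 12 * s) * ρ)
          + 9 * (b2 + 12 * s) * (b4 + s * b2 + 6 * s ^ 2)) * h6
        - (b2 + 12 * s) ^ 2 * h8
        + (8 * (b4 + s * b2 + 6 * s ^ 2) - 32 * ρ) * hG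
        + (6 * s * b2 + 36 * s ^ 2) * hb
  have hc4 : (b2 ^ 2 - 24 * b4) * ρ = B4 ^ 2 - 20 * B4 * ρ + 20 * ρ ^ 2 := by
    subst hB2 hB4
    linear_combination hG
  have hB4ne : B4 ≠ 20 * ρ := by
    intro h
    apply hΔ
    rw [hΔ', h]; ring
  have hβ : B4 / ρ ≠ 20 := by
    intro h
    apply hB4ne
    field_simp at h
    linarith
  have hζ1 : x3 ^ 2 / ρ ≠ 1 := by
    intro h
    apply hne
    field_simp at h
    linarith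
  have hcases := beta_cases (x3 ^ 2 / ρ) (B4 / ρ) (quad_rel B2 B4 ρ x3 hρ hG hΨ) hζ1
    (zeta_ne_neg_three B2 B4 ρ x3 hρ hG hΨ) hβ hE15
  have hc4' : b2 ^ 2 - 24 * b4 = ρ * ((B4 / ρ) ^ 2 - 20 * (B4 / ρ) + 20) := by
    field_simp
    linear_combination hc4
  have hΔ'' : -b2 ^ 2 * b8 - 8 * b4 ^ 3 - 27 * b6 ^ 2 + 9 * b2 * b4 * b6
      = 32 * ρ ^ 3 * (B4 / ρ - 20) := by
    rw [hΔ']
    field_simp
  refine ⟨(B4 / ρ - 20) / 2, ?_, ?_⟩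
  · rcases hcases with h | h | h | h
    · left; rw [h]; norm_num
    · right; left; rw [h]; norm_num
    · right; right; left; rw [h]; norm_num
    · right; right; right; rw [h]; norm_num
  · rw [hc4', hΔ'']
    ring

/-- Endgame: each of the four parameters forces `5 ∣ c₄` and `5 ∣ Δ`. -/
theorem five_dvd (c4 Δ : ℤ) (n : ℚ)
    (hn : n = -25 / 2 ∨ n = -25 / 8 ∨ n = -10 ∨ n = -40)
    (h : (c4 : ℚ) ^ 3 * n = (Δ : ℚ) * (n ^ 2 + 10 * n + 5) ^ 3) :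
    (5 : ℤ) ∣ c4 ∧ (5 : ℤ) ∣ Δ := by
  have key : ∀ (A B : ℤ), A * c4 ^ 3 = B * Δ → ¬ (5 : ℤ) ∣ A → (5 : ℤ) ∣ B → ¬ (125 : ℤ) ∣ B →
      (5 : ℤ) ∣ c4 ∧ (5 : ℤ) ∣ Δ := by
    intro A B hAB hA hB5 hB
    have h5 : Prime (5 : ℤ) := by norm_num
    have h2 : (5 : ℤ) ∣ c4 := by
      have h1 : (5 : ℤ) ∣ A * c4 ^ 3 := hAB ▸ Dvd.dvd.mul_right hB5 Δ
      rcases h5.dvd_or_dvd h1 with h | h
      · exact absurd h hA
      · exact h5.dvd_of_dvd_pow h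
    refine ⟨h2, ?_⟩
    by_contra hΔ5
    have hcop : IsCoprime ((5 : ℤ) ^ 3) Δ :=
      IsCoprime.pow_left ((Prime.coprime_iff_not_dvd h5).mpr hΔ5)
    obtain ⟨k, rfl⟩ := h2
    have h6 : (5 : ℤ) ^ 3 ∣ B * Δ := ⟨A * k ^ 3, by rw [← hAB]; ring⟩
    exact hB (by simpa using hcop.dvd_of_dvd_mul_right h6)
  rcases hn with rfl | rfl | rfl | rfl
  · refine key (-32) (5 * 29 ^ 3) ?_ (by norm_num) (by norm_num) (by norm_num)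
    have : (((-32 : ℤ) * c4 ^ 3 : ℤ) : ℚ) = ((5 * 29 ^ 3 * Δ : ℤ) : ℚ) := by
      push_cast; linear_combination (64 / 25 : ℚ) * h
    exact_mod_cast this
  · refine key (2 ^ 15) (5 * 211 ^ 3) ?_ (by norm_num) (by norm_num) (by norm_num)
    have : (((2 : ℤ) ^ 15 * c4 ^ 3 : ℤ) : ℚ) = ((5 * 211 ^ 3 * Δ : ℤ) : ℚ) := by
      push_cast; linear_combination (-262144 / 25 : ℚ) * h
    exact_mod_cast this
  · refine key (-2) 25 ?_ (by norm_num) (by norm_num) (by norm_num)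
    have : (((-2 : ℤ) * c4 ^ 3 : ℤ) : ℚ) = ((25 * Δ : ℤ) : ℚ) := by
      push_cast; linear_combination (1 / 5 : ℚ) * h
    exact_mod_cast this
  · refine key (-8) (25 * 241 ^ 3) ?_ (by norm_num) (by norm_num) (by norm_num)
    have : (((-8 : ℤ) * c4 ^ 3 : ℤ) : ℚ) = ((25 * 241 ^ 3 * Δ : ℤ) : ℚ) := by
      push_cast; linear_combination (1 / 5 : ℚ) * h
    exact_mod_cast this

end Fermat.Agent.S51.X15Core
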