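import Mathlib
import Fermat.Prelude.Def_FLTPrelim_Modularity
import Fermat.Agent.S51.X15Core

/-!
# S51 / ViaCore: the 3-5 lemma from rational torsion data, through `X15Core.core`

Inputs: a rational root `x0` of the 3-division polynomial, the rational pair `(s, ρ)`
attached to a rational 5-subgroup, and the list of rational points of
`Y² = X (X + 9) (X - 16)`.  Output: a contradiction with semistability at `5`.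
-/

set_option autoImplicit false

namespace Fermat.Agent.S51

namespace ViaCore

/-- The abscissa of the 3-torsion point cannot be one of the two abscissas of the
5-subgroup: otherwise the curve is singular. -/
theorem sq_ne (b2 b4 b6 b8 s ρ x3 : ℚ) (hb : 4 * b8 = b2 * b6 - b4 ^ 2) (hρ : ρ ≠ 0)
    (h6 : b6 + 2 * s * b4 + s ^ 2 * b2 + 4 * s ^ 3 = (b2 + 12 * s) * ρ)
    (h8 : b8 + 3 * s * b6 + 3 * s ^ 2 * b4 + s ^ 3 * b2 + 3 * s ^ 4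
      = 5 * ρ ^ 2 + (b4 + s * b2 + 6 * s ^ 2) * ρ)
    (h3 : 3 * (s + x3) ^ 4 + b2 * (s + x3) ^ 3 + 3 * b4 * (s + x3) ^ 2 + 3 * b6 * (s + x3)
      + b8 = 0)
    (hΔ : -b2 ^ 2 * b8 - 8 * b4 ^ 3 - 27 * b6 ^ 2 + 9 * b2 * b4 * b6 ≠ 0) :
    x3 ^ 2 ≠ ρ := by
  intro hx
  subst hx
  have hx3 : x3 ≠ 0 := by
    rintro rfl
    exact hρ (by ring)
  have hM : 4 * (s + x3) ^ 3 + b2 * (s + x3) ^ 2 + 2 * b4 * (s + x3) + b6 = 0 := by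
    have h2 : 2 * x3 * (4 * (s + x3) ^ 3 + b2 * (s + x3) ^ 2 + 2 * b4 * (s + x3) + b6) = 0 := by
      linear_combination h3 - x3 * h6 - h8
    rcases mul_eq_zero.mp h2 with h | h
    · exfalso
      apply hx3
      linarith
    · exact h
  have hN : (s + x3) ^ 4 - b4 * (s + x3) ^ 2 - 2 * b6 * (s + x3) - b8 = 0 := by
    linear_combination (s - x3) * hM - x3 * h6 - h8
  apply hΔ
  linear_combination
    (-(b2 + 12 * (s + x3)) ^ 2 * (s + x3)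
        + (b2 + 12 * (s + x3)) * (b4 + (s + x3) * b2 + 6 * (s + x3) ^ 2)
        + 32 * (s + x3) * (b4 + (s + x3) * b2 + 6 * (s + x3) ^ 2)
        - 27 * (4 * (s + x3) ^ 3 + b2 * (s + x3) ^ 2 + 2 * b4 * (s + x3) + b6)) * hM
      + ((b2 + 12 * (s + x3)) ^ 2 - 32 * (b4 + (s + x3) * b2 + 6 * (s + x3) ^ 2)) * hN
      + (-8 * b4 - 2 * b2 * (s + x3) - 12 * (s + x3) ^ 2) * hb

/-- The 3-5 lemma from rational torsion data: a rational root of the 3-division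
polynomial and the rational pair of a 5-subgroup cannot coexist on a semistable model. -/
theorem false_of_rat_root_and_pair (W : WeierstrassCurve ℤ) (hΔ : W.Δ ≠ 0)
    (hW : W.IsSemistableModel)
    (hE15 : ∀ X Y : ℚ, Y ^ 2 = X * (X + 9) * (X - 16) →
      X = 0 ∨ X = -9 ∨ X = 16 ∨ X = 36 ∨ X = -4)
    (x0 : ℚ)
    (hx0 : 3 * x0 ^ 4 + (W.b₂ : ℚ) * x0 ^ 3 + 3 * (W.b₄ : ℚ) * x0 ^ 2 + 3 * (W.b₆ : ℚ) * x0
      + (W.b₈ : ℚ) = 0)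
    (s ρ : ℚ) (hρ : ρ ≠ 0)
    (h6 : (W.b₆ : ℚ) + 2 * s * W.b₄ + s ^ 2 * W.b₂ + 4 * s ^ 3 = ((W.b₂ : ℚ) + 12 * s) * ρ)
    (h8 : (W.b₈ : ℚ) + 3 * s * W.b₆ + 3 * s ^ 2 * W.b₄ + s ^ 3 * W.b₂ + 3 * s ^ 4
      = 5 * ρ ^ 2 + ((W.b₄ : ℚ) + s * W.b₂ + 6 * s ^ 2) * ρ) : False := by
  have hb : 4 * (W.b₈ : ℚ) = (W.b₂ : ℚ) * (W.b₆ : ℚ) - (W.b₄ : ℚ) ^ 2 := by
    have := W.b_relation
    exact_mod_cast this
  have hΔq : (W.Δ : ℚ) = -(W.b₂ : ℚ) ^ 2 * (W.b₈ : ℚ) - 8 * (W.b₄ : ℚ) ^ 3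
      - 27 * (W.b₆ : ℚ) ^ 2 + 9 * (W.b₂ : ℚ) * (W.b₄ : ℚ) * (W.b₆ : ℚ) := by
    rw [WeierstrassCurve.Δ]; push_cast; ring
  have hc4q : (W.c₄ : ℚ) = (W.b₂ : ℚ) ^ 2 - 24 * (W.b₄ : ℚ) := by
    rw [WeierstrassCurve.c₄]; push_cast; ring
  have hΔ' : -(W.b₂ : ℚ) ^ 2 * (W.b₈ : ℚ) - 8 * (W.b₄ : ℚ) ^ 3
      - 27 * (W.b₆ : ℚ) ^ 2 + 9 * (W.b₂ : ℚ) * (W.b₄ : ℚ) * (W.b₆ : ℚ) ≠ 0 := by
    rw [← hΔq]
    exact_mod_cast hΔ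
  have h3 : 3 * (s + (x0 - s)) ^ 4 + (W.b₂ : ℚ) * (s + (x0 - s)) ^ 3
      + 3 * (W.b₄ : ℚ) * (s + (x0 - s)) ^ 2 + 3 * (W.b₆ : ℚ) * (s + (x0 - s))
      + (W.b₈ : ℚ) = 0 := by
    rw [add_sub_cancel]; exact hx0
  have hne := sq_ne _ _ _ _ s ρ (x0 - s) hb hρ h6 h8 h3 hΔ'
  obtain ⟨n, hn, hrel⟩ := X15Core.core _ _ _ _ s ρ (x0 - s) hb hρ h6 h8 h3 hne hΔ' hE15
  rw [← hΔq, ← hc4q] at hrel
  obtain ⟨h5c, h5Δ⟩ := X15Core.five_dvd W.c₄ W.Δ n hn hrel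
  exact hW 5 (by norm_num) (by exact_mod_cast h5Δ) (by exact_mod_cast h5c)

end ViaCore

end Fermat.Agent.S51
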