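import Mathlib

set_option autoImplicit false

namespace Fermat.Agent.S51

namespace ClassLemma

theorem nat_sq_split {a b c : ℕ} (ha : 0 < a) (h : a * b = c ^ 2) :
    ∃ k, a = Nat.gcd a b * k ^ 2 := by
  have hgpos : 0 < Nat.gcd a b := Nat.gcd_pos_of_pos_left b ha
  obtain ⟨a', b', hcop, ha', hb'⟩ := Nat.exists_coprime a b
  generalize Nat.gcd a b = g at *
  subst ha' hb'
  have h2 : g ^ 2 * (a' * b') = c ^ 2 := by rw [← h]; ring
  have hgc : g ∣ c := (Nat.pow_dvd_pow_iff two_ne_zero).mp ⟨a' * b', h2.symm⟩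
  obtain ⟨c', rfl⟩ := hgc
  have h3 : a' * b' = c' ^ 2 := by
    have : g ^ 2 * (a' * b') = g ^ 2 * c' ^ 2 := by rw [h2]; ring
    exact Nat.eq_of_mul_eq_mul_left (pow_pos hgpos 2) this
  obtain ⟨k, hk⟩ := exists_eq_pow_of_mul_eq_pow (Nat.isUnit_iff.mpr hcop) h3
  exact ⟨k, by rw [hk]; ring⟩

theorem sqfree_144 : ∀ g ∈ Nat.divisors 144, ∃ d ∈ ({1, 2, 3, 6} : Finset ℕ),
    ∃ r ∈ Finset.range 13, g = d * r ^ 2 := by decide

theorem sqfree_400 : ∀ g ∈ Nat.divisors 400, ∃ d ∈ ({1, 2, 5, 10} : Finset ℕ),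
    ∃ r ∈ Finset.range 21, g = d * r ^ 2 := by decide

theorem sqfree_225 : ∀ g ∈ Nat.divisors 225, ∃ d ∈ ({1, 3, 5, 15} : Finset ℕ),
    ∃ r ∈ Finset.range 16, g = d * r ^ 2 := by decide

theorem nat_classes {P Q R n : ℕ} (hP : 0 < P) (hQ : 0 < Q) (hR : 0 < R)
    (h : P * Q * R = n ^ 2) (h1 : Nat.gcd P Q ∣ 16) (h2 : Nat.gcd P R ∣ 9)
    (h3 : Nat.gcd Q R ∣ 25) :
    ∃ d1 d2 d3 A B C : ℕ, P = d1 * A ^ 2 ∧ Q = d2 * B ^ 2 ∧ R = d3 * C ^ 2 ∧
      ((d1 = 1 ∧ d2 = 1 ∧ d3 = 1) ∨ (d1 = 1 ∧ d2 = 5 ∧ d3 = 5) ∨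
       (d1 = 2 ∧ d2 = 2 ∧ d3 = 1) ∨ (d1 = 2 ∧ d2 = 10 ∧ d3 = 5) ∨
       (d1 = 3 ∧ d2 = 1 ∧ d3 = 3) ∨ (d1 = 3 ∧ d2 = 5 ∧ d3 = 15) ∨
       (d1 = 6 ∧ d2 = 2 ∧ d3 = 3) ∨ (d1 = 6 ∧ d2 = 10 ∧ d3 = 15)) := by
  obtain ⟨k1, hk1⟩ := nat_sq_split hP (show P * (Q * R) = n ^ 2 by rw [← h]; ring)
  have hg1 : Nat.gcd P (Q * R) ∣ 144 :=
    (Nat.gcd_mul_right_dvd_mul_gcd P Q R).trans (Nat.mul_dvd_mul h1 h2)
  obtain ⟨d1, hd1, r1, -, hr1⟩ := sqfree_144 _ (Nat.mem_divisors.mpr ⟨hg1, by norm_num⟩)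
  obtain ⟨k2, hk2⟩ := nat_sq_split hQ (show Q * (P * R) = n ^ 2 by rw [← h]; ring)
  have hg2 : Nat.gcd Q (P * R) ∣ 400 :=
    (Nat.gcd_mul_right_dvd_mul_gcd Q P R).trans
      (Nat.mul_dvd_mul (show Nat.gcd Q P ∣ 16 by rwa [Nat.gcd_comm]) h3)
  obtain ⟨d2, hd2, r2, -, hr2⟩ := sqfree_400 _ (Nat.mem_divisors.mpr ⟨hg2, by norm_num⟩)
  obtain ⟨k3, hk3⟩ := nat_sq_split hR (show R * (P * Q) = n ^ 2 by rw [← h]; ring)
  have hg3 : Nat.gcd R (P * Q) ∣ 225 :=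
    (Nat.gcd_mul_right_dvd_mul_gcd R P Q).trans
      (Nat.mul_dvd_mul (show Nat.gcd R P ∣ 9 by rwa [Nat.gcd_comm])
        (show Nat.gcd R Q ∣ 25 by rwa [Nat.gcd_comm]))
  obtain ⟨d3, hd3, r3, -, hr3⟩ := sqfree_225 _ (Nat.mem_divisors.mpr ⟨hg3, by norm_num⟩)
  have hP' : P = d1 * (r1 * k1) ^ 2 := by rw [hk1, hr1]; ring
  have hQ' : Q = d2 * (r2 * k2) ^ 2 := by rw [hk2, hr2]; ring
  have hR' : R = d3 * (r3 * k3) ^ 2 := by rw [hk3, hr3]; ring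
  refine ⟨d1, d2, d3, r1 * k1, r2 * k2, r3 * k3, hP', hQ', hR', ?_⟩
  generalize r1 * k1 = A at hP'
  generalize r2 * k2 = B at hQ'
  generalize r3 * k3 = C at hR'
  have hA : 0 < A := by
    rcases Nat.eq_zero_or_pos A with rfl | hA
    · simp at hP'; omega
    · exact hA
  have hB : 0 < B := by
    rcases Nat.eq_zero_or_pos B with rfl | hB
    · simp at hQ'; omega
    · exact hB
  have hC : 0 < C := by
    rcases Nat.eq_zero_or_pos C with rfl | hC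
    · simp at hR'; omega
    · exact hC
  have hsq : IsSquare (d1 * d2 * d3) := by
    have e1 : (A * B * C) ^ 2 * (d1 * d2 * d3) = n ^ 2 := by
      rw [← h, hP', hQ', hR']; ring
    have hdvd : A * B * C ∣ n := (Nat.pow_dvd_pow_iff two_ne_zero).mp ⟨_, e1.symm⟩
    obtain ⟨m, rfl⟩ := hdvd
    refine ⟨m, ?_⟩
    have hK : 0 < (A * B * C) ^ 2 := by positivity
    exact Nat.eq_of_mul_eq_mul_left hK (by rw [e1]; ring)
  simp only [Finset.mem_insert, Finset.mem_singleton] at hd1 hd2 hd3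
  rcases hd1 with rfl | rfl | rfl | rfl <;> rcases hd2 with rfl | rfl | rfl | rfl <;>
    rcases hd3 with rfl | rfl | rfl | rfl <;>
    first
      | (exfalso; norm_num at hsq; done)
      | norm_num

theorem bad3 {p e A B C s u d2 w : ℤ} (hcop : IsCoprime p e) (hs : s = 1 ∨ s = -1)
    (hcl : (u = 1 ∧ d2 = 1 ∧ w = 1) ∨ (u = 1 ∧ d2 = 5 ∧ w = 5) ∨
      (u = 2 ∧ d2 = 2 ∧ w = 1) ∨ (u = 2 ∧ d2 = 10 ∧ w = 5))
    (h1 : p = s * (3 * u) * A ^ 2) (h2 : p - 16 * e ^ 2 = s * d2 * B ^ 2)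
    (h3 : p + 9 * e ^ 2 = (3 * w) * C ^ 2) : False := by
  have h3' : s * u * A ^ 2 + 3 * e ^ 2 = w * C ^ 2 := by rw [h1] at h3; linarith
  have h2' : s * (3 * u) * A ^ 2 - 16 * e ^ 2 = s * d2 * B ^ 2 := by rw [h1] at h2; exact h2
  have he : (3 : ℤ) ∣ e := by
    have c2 := congrArg (Int.cast : ℤ → ZMod 9) h2'
    have c3 := congrArg (Int.cast : ℤ → ZMod 9) h3'
    have key : (3 : ZMod 9) * (e : ZMod 9) = 0 := by
      rcases hs with rfl | rfl <;>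
        rcases hcl with ⟨rfl, rfl, rfl⟩ | ⟨rfl, rfl, rfl⟩ | ⟨rfl, rfl, rfl⟩ | ⟨rfl, rfl, rfl⟩ <;>
      · push_cast at c2 c3
        revert c2 c3
        generalize (A : ZMod 9) = A'
        generalize (B : ZMod 9) = B'
        generalize (C : ZMod 9) = C'
        generalize (e : ZMod 9) = e'
        revert A' B' C' e'
        decide
    have h9 : ((3 * e : ℤ) : ZMod 9) = 0 := by push_cast; exact key
    rw [ZMod.intCast_zmod_eq_zero_iff_dvd] at h9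
    obtain ⟨k, hk⟩ := h9
    exact ⟨k, by push_cast at hk; linarith⟩
  have hp : (3 : ℤ) ∣ p := by rw [h1]; exact ⟨s * u * A ^ 2, by ring⟩
  have hu := hcop.isUnit_of_dvd' hp he
  rw [Int.isUnit_iff] at hu
  omega

theorem bad2 {p e A B C s d2 w : ℤ} (hcop : IsCoprime p e) (hs : s = 1 ∨ s = -1)
    (hcl : (d2 = 2 ∧ w = 1) ∨ (d2 = 10 ∧ w = 5))
    (h1 : p = s * 2 * A ^ 2) (h2 : p - 16 * e ^ 2 = s * d2 * B ^ 2)
    (h3 : p + 9 * e ^ 2 = w * C ^ 2) : False := by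
  have h2' : s * 2 * A ^ 2 - 16 * e ^ 2 = s * d2 * B ^ 2 := by rw [h1] at h2; exact h2
  have h3' : s * 2 * A ^ 2 + 9 * e ^ 2 = w * C ^ 2 := by rw [h1] at h3; exact h3
  have c2 := congrArg (Int.cast : ℤ → ZMod 5) h2'
  have c3 := congrArg (Int.cast : ℤ → ZMod 5) h3'
  have key : (A : ZMod 5) = 0 ∧ (e : ZMod 5) = 0 := by
    rcases hs with rfl | rfl <;> rcases hcl with ⟨rfl, rfl⟩ | ⟨rfl, rfl⟩ <;>
    · push_cast at c2 c3
      revert c2 c3
      generalize (A : ZMod 5) = A'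
      generalize (B : ZMod 5) = B'
      generalize (C : ZMod 5) = C'
      generalize (e : ZMod 5) = e'
      revert A' B' C' e'
      decide
  have hA : ((5 : ℕ) : ℤ) ∣ A := (ZMod.intCast_zmod_eq_zero_iff_dvd A 5).mp key.1
  have he : ((5 : ℕ) : ℤ) ∣ e := (ZMod.intCast_zmod_eq_zero_iff_dvd e 5).mp key.2
  have hp : ((5 : ℕ) : ℤ) ∣ p := by
    rw [h1]; exact Dvd.dvd.mul_left (dvd_pow hA two_ne_zero) _
  have hu := hcop.isUnit_of_dvd' hp he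
  rw [Int.isUnit_iff] at hu
  norm_num at hu

theorem int_classes {p e n : ℤ} (hcop : IsCoprime p e) (he : e ≠ 0) (hn : n ≠ 0)
    (h : p * (p - 16 * e ^ 2) * (p + 9 * e ^ 2) = n ^ 2) :
    ∃ s d A B C : ℤ, (s = 1 ∨ s = -1) ∧ (d = 1 ∨ d = 5) ∧
      p = s * A ^ 2 ∧ p - 16 * e ^ 2 = s * d * B ^ 2 ∧ p + 9 * e ^ 2 = d * C ^ 2 := by
  have he2 : 0 < e ^ 2 := by positivity
  have hn2 : 0 < n ^ 2 := by positivity
  have hpos : 0 < p * (p - 16 * e ^ 2) * (p + 9 * e ^ 2) := by rw [h]; exact hn2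
  -- signs
  obtain ⟨s, hs, hsa, hsb, hc⟩ : ∃ s : ℤ, (s = 1 ∨ s = -1) ∧ 0 < s * p ∧
      0 < s * (p - 16 * e ^ 2) ∧ 0 < p + 9 * e ^ 2 := by
    rcases lt_trichotomy p 0 with hp | hp | hp
    · refine ⟨-1, Or.inr rfl, by linarith, by linarith, ?_⟩
      by_contra hcon
      have h1 : 0 < p * (p - 16 * e ^ 2) := mul_pos_of_neg_of_neg hp (by linarith)
      have h2 : p * (p - 16 * e ^ 2) * (p + 9 * e ^ 2) ≤ 0 :=
        mul_nonpos_of_nonneg_of_nonpos h1.le (by linarith)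
      linarith
    · rw [hp] at hpos; simp at hpos
    · refine ⟨1, Or.inl rfl, by linarith, ?_, by linarith⟩
      by_contra hcon
      have h1 : p * (p - 16 * e ^ 2) ≤ 0 :=
        mul_nonpos_of_nonneg_of_nonpos hp.le (by linarith)
      have h2 : p * (p - 16 * e ^ 2) * (p + 9 * e ^ 2) ≤ 0 :=
        mul_nonpos_of_nonpos_of_nonneg h1 (by linarith)
      linarith
  have hss : s * s = 1 := by rcases hs with rfl | rfl <;> norm_num
  have hPa : ((p.natAbs : ℕ) : ℤ) = s * p := by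
    rw [Int.natCast_natAbs]
    rcases hs with rfl | rfl
    · rw [abs_of_pos (by linarith)]; ring
    · rw [abs_of_neg (by linarith)]; ring
  have hQb : (((p - 16 * e ^ 2).natAbs : ℕ) : ℤ) = s * (p - 16 * e ^ 2) := by
    rw [Int.natCast_natAbs]
    rcases hs with rfl | rfl
    · rw [abs_of_pos (by linarith)]; ring
    · rw [abs_of_neg (by linarith)]; ring
  have hRc : (((p + 9 * e ^ 2).natAbs : ℕ) : ℤ) = p + 9 * e ^ 2 := by
    rw [Int.natCast_natAbs, abs_of_pos hc]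
  -- gcds
  have hbe : IsCoprime (p - 16 * e ^ 2) e := by
    have h1 : p - 16 * e ^ 2 = p + (-16 * e) * e := by ring
    rw [h1]; exact hcop.add_mul_right_left (-16 * e)
  have g1 : Int.gcd p (p - 16 * e ^ 2) ∣ 16 := by
    have d1 : ((Int.gcd p (p - 16 * e ^ 2) : ℕ) : ℤ) ∣ 16 * e ^ 2 := by
      have := dvd_sub (Int.gcd_dvd_left p (p - 16 * e ^ 2)) (Int.gcd_dvd_right p (p - 16 * e ^ 2))
      rwa [show p - (p - 16 * e ^ 2) = 16 * e ^ 2 by ring] at this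
    have c1 : IsCoprime ((Int.gcd p (p - 16 * e ^ 2) : ℕ) : ℤ) (e ^ 2) :=
      (hcop.of_isCoprime_of_dvd_left (Int.gcd_dvd_left p (p - 16 * e ^ 2))).pow_right
    exact_mod_cast c1.dvd_of_dvd_mul_right d1
  have g2 : Int.gcd p (p + 9 * e ^ 2) ∣ 9 := by
    have d1 : ((Int.gcd p (p + 9 * e ^ 2) : ℕ) : ℤ) ∣ 9 * e ^ 2 := by
      have := dvd_sub (Int.gcd_dvd_right p (p + 9 * e ^ 2)) (Int.gcd_dvd_left p (p + 9 * e ^ 2))
      rwa [show (p + 9 * e ^ 2) - p = 9 * e ^ 2 by ring] at this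
    have c1 : IsCoprime ((Int.gcd p (p + 9 * e ^ 2) : ℕ) : ℤ) (e ^ 2) :=
      (hcop.of_isCoprime_of_dvd_left (Int.gcd_dvd_left p (p + 9 * e ^ 2))).pow_right
    exact_mod_cast c1.dvd_of_dvd_mul_right d1
  have g3 : Int.gcd (p - 16 * e ^ 2) (p + 9 * e ^ 2) ∣ 25 := by
    have d1 : ((Int.gcd (p - 16 * e ^ 2) (p + 9 * e ^ 2) : ℕ) : ℤ) ∣ 25 * e ^ 2 := by
      have := dvd_sub (Int.gcd_dvd_right (p - 16 * e ^ 2) (p + 9 * e ^ 2))
        (Int.gcd_dvd_left (p - 16 * e ^ 2) (p + 9 * e ^ 2))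
      rwa [show (p + 9 * e ^ 2) - (p - 16 * e ^ 2) = 25 * e ^ 2 by ring] at this
    have c1 : IsCoprime ((Int.gcd (p - 16 * e ^ 2) (p + 9 * e ^ 2) : ℕ) : ℤ) (e ^ 2) :=
      (hbe.of_isCoprime_of_dvd_left
        (Int.gcd_dvd_left (p - 16 * e ^ 2) (p + 9 * e ^ 2))).pow_right
    exact_mod_cast c1.dvd_of_dvd_mul_right d1
  have hprod : p.natAbs * (p - 16 * e ^ 2).natAbs * (p + 9 * e ^ 2).natAbs = n.natAbs ^ 2 := by
    rw [← Int.natAbs_mul, ← Int.natAbs_mul, ← Int.natAbs_pow, h]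
  have hPpos : 0 < p.natAbs := Int.natAbs_pos.mpr (by rintro rfl; simp at hsa)
  have hQpos : 0 < (p - 16 * e ^ 2).natAbs := Int.natAbs_pos.mpr (by
    intro h0; rw [h0] at hsb; simp at hsb)
  have hRpos : 0 < (p + 9 * e ^ 2).natAbs := Int.natAbs_pos.mpr (by
    intro h0; rw [h0] at hc; simp at hc)
  obtain ⟨d1, d2, d3, A, B, C, hP, hQ, hR, hcl⟩ :=
    nat_classes hPpos hQpos hRpos hprod g1 g2 g3
  have e1 : p = s * ((d1 : ℤ) * (A : ℤ) ^ 2) := by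
    have : ((p.natAbs : ℕ) : ℤ) = (d1 : ℤ) * (A : ℤ) ^ 2 := by exact_mod_cast hP
    rw [← this, hPa, ← mul_assoc, hss, one_mul]
  have e2 : p - 16 * e ^ 2 = s * ((d2 : ℤ) * (B : ℤ) ^ 2) := by
    have : (((p - 16 * e ^ 2).natAbs : ℕ) : ℤ) = (d2 : ℤ) * (B : ℤ) ^ 2 := by exact_mod_cast hQ
    rw [← this, hQb, ← mul_assoc, hss, one_mul]
  have e3 : p + 9 * e ^ 2 = (d3 : ℤ) * (C : ℤ) ^ 2 := by
    have : (((p + 9 * e ^ 2).natAbs : ℕ) : ℤ) = (d3 : ℤ) * (C : ℤ) ^ 2 := by exact_mod_cast hR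
    rw [← this, hRc]
  rcases hcl with ⟨rfl, rfl, rfl⟩ | ⟨rfl, rfl, rfl⟩ | ⟨rfl, rfl, rfl⟩ | ⟨rfl, rfl, rfl⟩ |
    ⟨rfl, rfl, rfl⟩ | ⟨rfl, rfl, rfl⟩ | ⟨rfl, rfl, rfl⟩ | ⟨rfl, rfl, rfl⟩ <;> push_cast at e1 e2 e3
  · exact ⟨s, 1, A, B, C, hs, Or.inl rfl, by linear_combination e1, by linear_combination e2,
      by linear_combination e3⟩
  · exact ⟨s, 5, A, B, C, hs, Or.inr rfl, by linear_combination e1, by linear_combination e2,
      by linear_combination e3⟩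
  · exact (bad2 (A := A) (B := B) (C := C) hcop hs (Or.inl ⟨rfl, rfl⟩)
      (by linear_combination e1) (by linear_combination e2) (by linear_combination e3)).elim
  · exact (bad2 (A := A) (B := B) (C := C) hcop hs (Or.inr ⟨rfl, rfl⟩)
      (by linear_combination e1) (by linear_combination e2) (by linear_combination e3)).elim
  · exact (bad3 (A := A) (B := B) (C := C) hcop hs (Or.inl ⟨rfl, rfl, rfl⟩)
      (by linear_combination e1) (by linear_combination e2) (by linear_combination e3)).elim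
  · exact (bad3 (A := A) (B := B) (C := C) hcop hs (Or.inr (Or.inl ⟨rfl, rfl, rfl⟩))
      (by linear_combination e1) (by linear_combination e2) (by linear_combination e3)).elim
  · exact (bad3 (A := A) (B := B) (C := C) hcop hs (Or.inr (Or.inr (Or.inl ⟨rfl, rfl, rfl⟩)))
      (by linear_combination e1) (by linear_combination e2) (by linear_combination e3)).elim
  · exact (bad3 (A := A) (B := B) (C := C) hcop hs (Or.inr (Or.inr (Or.inr ⟨rfl, rfl, rfl⟩)))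
      (by linear_combination e1) (by linear_combination e2) (by linear_combination e3)).elim

theorem rat_to_int (x y : ℚ) (h : y ^ 2 = x * (x - 16) * (x + 9))
    (h0 : x ≠ 0) (h16 : x ≠ 16) (h9 : x ≠ -9) :
    ∃ p e n : ℤ, IsCoprime p e ∧ e ≠ 0 ∧ n ≠ 0 ∧ x = (p : ℚ) / (e : ℚ) ^ 2 ∧
      p * (p - 16 * e ^ 2) * (p + 9 * e ^ 2) = n ^ 2 := by
  obtain ⟨p, q, hq, hcop, hxe⟩ : ∃ p q : ℤ, 0 < q ∧ IsCoprime p q ∧ x = (p : ℚ) / (q : ℚ) :=
    ⟨x.num, x.den, by exact_mod_cast x.den_pos, Rat.isCoprime_num_den x,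
      by simpa using (Rat.num_div_den x).symm⟩
  have hqq : (q : ℚ) ≠ 0 := by exact_mod_cast hq.ne'
  have hN0 : p * (p - 16 * q) * (p + 9 * q) ≠ 0 := by
    have hp0 : p ≠ 0 := by
      rintro rfl; apply h0; rw [hxe]; simp
    have hp16 : p - 16 * q ≠ 0 := by
      intro hh; apply h16; rw [hxe, div_eq_iff hqq]
      exact_mod_cast (by linarith : p = 16 * q)
    have hp9 : p + 9 * q ≠ 0 := by
      intro hh; apply h9; rw [hxe, div_eq_iff hqq]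
      exact_mod_cast (by linarith : p = -9 * q)
    exact mul_ne_zero (mul_ne_zero hp0 hp16) hp9
  have hsqQ : ((q * (p * (p - 16 * q) * (p + 9 * q)) : ℤ) : ℚ) = (y * q ^ 2) * (y * q ^ 2) := by
    have : (y * (q : ℚ) ^ 2) * (y * q ^ 2) = y ^ 2 * (q : ℚ) ^ 4 := by ring
    rw [this, h, hxe]; push_cast; field_simp
  have hsq : IsSquare (q * (p * (p - 16 * q) * (p + 9 * q))) := by
    rw [← Rat.isSquare_intCast_iff, hsqQ]; exact ⟨_, rfl⟩
  obtain ⟨m, hm⟩ := hsq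
  have hcopN : IsCoprime q (p * (p - 16 * q) * (p + 9 * q)) := by
    have c1 : IsCoprime q p := hcop.symm
    have c2 : IsCoprime q (p - 16 * q) := by
      have h1 : p - 16 * q = p + (-16) * q := by ring
      rw [h1]; exact (hcop.add_mul_right_left (-16)).symm
    have c3 : IsCoprime q (p + 9 * q) := (hcop.add_mul_right_left 9).symm
    exact (c1.mul_right c2).mul_right c3
  have hm' : q * (p * (p - 16 * q) * (p + 9 * q)) = m ^ 2 := by rw [hm]; ring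
  obtain ⟨e0, he0 | he0⟩ := Int.sq_of_isCoprime hcopN hm'
  swap
  · exfalso; nlinarith [sq_nonneg e0]
  have he00 : e0 ≠ 0 := by rintro rfl; simp at he0; omega
  obtain ⟨n0, hn0 | hn0⟩ := Int.sq_of_isCoprime hcopN.symm
    (show (p * (p - 16 * q) * (p + 9 * q)) * q = m ^ 2 by rw [← hm']; ring)
  · refine ⟨p, e0, n0, ?_, he00, ?_, ?_, ?_⟩
    · rw [he0] at hcop; exact (IsCoprime.pow_right_iff two_pos).mp hcop
    · rintro rfl; apply hN0; rw [hn0]; ring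
    · rw [hxe, he0]; push_cast; ring
    · rw [← he0]; exact hn0
  · exfalso
    have hNnonneg : 0 ≤ p * (p - 16 * q) * (p + 9 * q) := by
      by_contra hcon
      have : q * (p * (p - 16 * q) * (p + 9 * q)) < 0 :=
        mul_neg_of_pos_of_neg hq (not_le.mp hcon)
      nlinarith [sq_nonneg m]
    have : n0 = 0 := by
      by_contra hn00
      have : 0 < n0 ^ 2 := by positivity
      linarith
    apply hN0; rw [hn0, this]; ring

end ClassLemma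

theorem class_lemma (x y : ℚ) (h : y ^ 2 = x * (x - 16) * (x + 9))
    (h0 : x ≠ 0) (h16 : x ≠ 16) (h9 : x ≠ -9) :
    (∃ u v w : ℚ, x = u ^ 2 ∧ x - 16 = v ^ 2 ∧ x + 9 = w ^ 2) ∨
    (∃ u v w : ℚ, x = - u ^ 2 ∧ x - 16 = - v ^ 2 ∧ x + 9 = w ^ 2) ∨
    (∃ u v w : ℚ, x = u ^ 2 ∧ x - 16 = 5 * v ^ 2 ∧ x + 9 = 5 * w ^ 2) ∨
    (∃ u v w : ℚ, x = - u ^ 2 ∧ x - 16 = - (5 * v ^ 2) ∧ x + 9 = 5 * w ^ 2) := by
  obtain ⟨p, e, n, hcop, he, hn, hx, hN⟩ := ClassLemma.rat_to_int x y h h0 h16 h9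
  obtain ⟨s, d, A, B, C, hs, hd, e1, e2, e3⟩ := ClassLemma.int_classes hcop he hn hN
  have heq : (e : ℚ) ≠ 0 := by exact_mod_cast he
  have q1 : (p : ℚ) = s * A ^ 2 := by exact_mod_cast e1
  have q2 : (p : ℚ) - 16 * (e : ℚ) ^ 2 = s * d * B ^ 2 := by exact_mod_cast e2
  have q3 : (p : ℚ) + 9 * (e : ℚ) ^ 2 = d * C ^ 2 := by exact_mod_cast e3
  have x1 : x = s * ((A : ℚ) / e) ^ 2 := by rw [hx, q1]; field_simp
  have x2 : x - 16 = s * d * ((B : ℚ) / e) ^ 2 := by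
    rw [hx, div_pow, ← mul_div_assoc, ← q2]; field_simp
  have x3 : x + 9 = d * ((C : ℚ) / e) ^ 2 := by
    rw [hx, div_pow, ← mul_div_assoc, ← q3]; field_simp
  rcases hs with rfl | rfl <;> rcases hd with rfl | rfl <;> push_cast at x1 x2 x3
  · left
    exact ⟨(A : ℚ) / e, (B : ℚ) / e, (C : ℚ) / e, by linear_combination x1,
      by linear_combination x2, by linear_combination x3⟩
  · right; right; left
    exact ⟨(A : ℚ) / e, (B : ℚ) / e, (C : ℚ) / e, by linear_combination x1,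
      by linear_combination x2, by linear_combination x3⟩
  · right; left
    exact ⟨(A : ℚ) / e, (B : ℚ) / e, (C : ℚ) / e, by linear_combination x1,
      by linear_combination x2, by linear_combination x3⟩
  · right; right; right
    exact ⟨(A : ℚ) / e, (B : ℚ) / e, (C : ℚ) / e, by linear_combination x1,
      by linear_combination x2, by linear_combination x3⟩

theorem class_lemma_pos (x y : ℚ) (h : y ^ 2 = x * (x - 16) * (x + 9)) (hx : 16 < x) :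
    (∃ u v w : ℚ, x = u ^ 2 ∧ x - 16 = v ^ 2 ∧ x + 9 = w ^ 2) ∨
    (∃ u v w : ℚ, x = u ^ 2 ∧ x - 16 = 5 * v ^ 2 ∧ x + 9 = 5 * w ^ 2) := by
  rcases class_lemma x y h (by linarith : (0 : ℚ) < x).ne' hx.ne'
    (by linarith : (-9 : ℚ) < x).ne' with h1 | ⟨u, v, w, hu, -, -⟩ | h3 | ⟨u, v, w, hu, -, -⟩
  · exact Or.inl h1
  · exfalso; nlinarith [sq_nonneg u]
  · exact Or.inr h3
  · exfalso; nlinarith [sq_nonneg u]

end Fermat.Agent.S51
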