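import Mathlib
import Fermat.Prelude.Def_FLTPrelim_Modularity

set_option autoImplicit false
set_option linter.unusedVariables false
open WeierstrassCurve

namespace Fermat.Agent.S51

namespace Endgame

theorem five_dvd_of {c D a b : ℤ} (h : a * c ^ 3 = b * D) (ha : ¬ (5 : ℤ) ∣ a)
    (hb : (5 : ℤ) ∣ b) (hb' : ¬ (125 : ℤ) ∣ b) : (5 : ℤ) ∣ c ∧ (5 : ℤ) ∣ D := by
  have h5 : Prime (5 : ℤ) := Int.prime_iff_natAbs_prime.mpr (by norm_num)
  have hc : (5 : ℤ) ∣ c := by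
    have h0 : (5 : ℤ) ∣ a * c ^ 3 := by rw [h]; exact Dvd.dvd.mul_right hb _
    rcases h5.dvd_or_dvd h0 with h1 | h1
    · exact absurd h1 ha
    · exact h5.dvd_of_dvd_pow h1
  refine ⟨hc, ?_⟩
  by_contra hD
  obtain ⟨k, rfl⟩ := hc
  have h125 : (125 : ℤ) ∣ b * D := ⟨a * k ^ 3, by rw [← h]; ring⟩
  have hcop : IsCoprime (125 : ℤ) D := by
    have h1 : IsCoprime (5 : ℤ) D := (Prime.coprime_iff_not_dvd h5).mpr hD
    have h2 : IsCoprime ((5 : ℤ) ^ 3) D := h1.pow_left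
    norm_num at h2
    exact h2
  exact hb' (hcop.dvd_of_dvd_mul_right h125)

end Endgame

theorem semistable_c4_ne_zero (W : WeierstrassCurve ℤ) (hΔ : W.Δ ≠ 0)
    (hW : W.IsSemistableModel) : W.c₄ ≠ 0 := by
  intro hc4
  have hunit : W.Δ.natAbs = 1 := by
    by_contra hne
    obtain ⟨p, hp, hpd⟩ := Nat.exists_prime_and_dvd hne
    exact hW p hp (Int.natCast_dvd.mpr hpd) (by rw [hc4]; exact dvd_zero _)
  have hrel := W.c_relation
  rw [hc4] at hrel
  rcases Int.natAbs_eq_iff.mp hunit with h1 | h1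
  · rw [h1] at hrel
    norm_num at hrel
    nlinarith [sq_nonneg W.c₆]
  · rw [h1] at hrel
    have h6 : IsSquare (1728 : ℤ) := ⟨W.c₆, by push_cast at hrel; linarith⟩
    norm_num at h6

theorem semistable_excludes (W : WeierstrassCurve ℤ) (hΔ : W.Δ ≠ 0)
    (hW : W.IsSemistableModel) (t : ℚ)
    (ht : t = -2 ∨ t = -32 ∨ t = -729 / 2 ∨ t = -729 / 32) :
    (W.c₄ : ℚ) ^ 3 * t ≠ (W.Δ : ℚ) * ((t + 27) * (t + 3) ^ 3) := by
  intro h
  have key : ∃ a b : ℤ, a * W.c₄ ^ 3 = b * W.Δ ∧ ¬ (5 : ℤ) ∣ a ∧ (5 : ℤ) ∣ b ∧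
      ¬ (125 : ℤ) ∣ b := by
    rcases ht with rfl | rfl | rfl | rfl
    · refine ⟨-2, 25, ?_, by norm_num, by norm_num, by norm_num⟩
      have h' : ((-2 * W.c₄ ^ 3 : ℤ) : ℚ) = ((25 * W.Δ : ℤ) : ℚ) := by
        push_cast; norm_num at h; linarith
      exact_mod_cast h'
    · refine ⟨-32, 121945, ?_, by norm_num, by norm_num, by norm_num⟩
      have h' : ((-32 * W.c₄ ^ 3 : ℤ) : ℚ) = ((121945 * W.Δ : ℤ) : ℚ) := by
        push_cast; norm_num at h; linarith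
      exact_mod_cast h'
    · refine ⟨-8, 349938025, ?_, by norm_num, by norm_num, by norm_num⟩
      have h' : ((-8 * W.c₄ ^ 3 : ℤ) : ℚ) = ((349938025 * W.Δ : ℤ) : ℚ) := by
        push_cast; norm_num at h; linarith
      exact_mod_cast h'
    · refine ⟨32768, 46969655, ?_, by norm_num, by norm_num, by norm_num⟩
      have h' : ((32768 * W.c₄ ^ 3 : ℤ) : ℚ) = ((46969655 * W.Δ : ℤ) : ℚ) := by
        push_cast; norm_num at h; linarith
      exact_mod_cast h'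
  obtain ⟨a, b, hab, ha, hb, hb'⟩ := key
  obtain ⟨h1, h2⟩ := Endgame.five_dvd_of hab ha hb hb'
  exact hW 5 (by norm_num) (by exact_mod_cast h2) (by exact_mod_cast h1)

end Fermat.Agent.S51
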