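import Mathlib
import Fermat.Prelude.Def_FLTPrelim_GaloisRep
import Fermat.Prelude.Def_FLTPrelim_ModularRep

set_option autoImplicit false

namespace Fermat.Agent.S51

open WeierstrassCurve WeierstrassCurve.Affine

section Generic

variable {F : Type*} [Field F] (E : WeierstrassCurve.Affine F)

/-- The cubic `4x³ + b₂x² + 2b₄x + b₆` (the square of `2y + a₁x + a₃` on the curve). -/
def Tors5.M (x : F) : F := 4 * x ^ 3 + E.b₂ * x ^ 2 + 2 * E.b₄ * x + E.b₆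

/-- The quartic numerator `x⁴ - b₄x² - 2b₆x - b₈` of the duplication formula. -/
def Tors5.Nm (x : F) : F := x ^ 4 - E.b₄ * x ^ 2 - 2 * E.b₆ * x - E.b₈

/-- The x-coordinate of a point (junk value `0` at infinity). -/
def Tors5.xc : E.Point → F
  | .zero => 0
  | .some x _ _ => x

@[simp] lemma Tors5.xc_some {x y : F} (h : E.Nonsingular x y) :
    Tors5.xc E (Point.some x y h) = x := rfl

lemma Tors5.xc_neg (P : E.Point) : Tors5.xc E (-P) = Tors5.xc E P := by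
  cases P <;> rfl

lemma Tors5.psi_sq {x y : F} (h : E.Equation x y) :
    (y - E.negY x y) ^ 2 = Tors5.M E x := by
  rw [equation_iff] at h
  simp only [Tors5.M, negY, WeierstrassCurve.b₂, WeierstrassCurve.b₄, WeierstrassCurve.b₆]
  linear_combination 4 * h

lemma Tors5.res_identity (x : F) (hM : Tors5.M E x = 0) (hN : Tors5.Nm E x = 0) : E.Δ = 0 := by
  have hb := E.b_relation
  simp only [Tors5.M, Tors5.Nm] at hM hN
  rw [WeierstrassCurve.Δ]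
  linear_combination (12 * x ^ 3 - E.b₂ * x ^ 2 - 10 * E.b₄ * x + E.b₂ * E.b₄ - 27 * E.b₆) * hM
    - (48 * x ^ 2 + 8 * E.b₂ * x + 32 * E.b₄ - E.b₂ ^ 2) * hN
    - (12 * x ^ 2 + 2 * E.b₂ * x + 8 * E.b₄) * hb

lemma Tors5.xc_eq_iff {P Q : E.Point} (hP : P ≠ 0) (hQ : Q ≠ 0) :
    Tors5.xc E P = Tors5.xc E Q ↔ P = Q ∨ P = -Q := by
  rcases P with _ | ⟨x₁, y₁, h₁⟩
  · exact absurd rfl hP
  rcases Q with _ | ⟨x₂, y₂, h₂⟩
  · exact absurd rfl hQ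
  exact Point.X_eq_iff

variable [DecidableEq F]

lemma Tors5.two_nsmul_eq_zero_iff {P : E.Point} (hP : P ≠ 0) :
    2 • P = 0 ↔ Tors5.M E (Tors5.xc E P) = 0 := by
  rcases P with _ | ⟨x, y, h⟩
  · exact absurd rfl hP
  rw [two_nsmul, Tors5.xc_some, ← Tors5.psi_sq E h.1]
  constructor
  · intro h0
    by_contra hne
    have hy : y ≠ E.negY x y := fun hy => hne (by rw [← hy, sub_self]; ring)
    rw [Point.add_self_of_Y_ne hy] at h0
    exact Point.some_ne_zero _ h0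
  · intro h0
    have hy : y = E.negY x y := by
      have := pow_eq_zero_iff (n := 2) (by norm_num) |>.mp h0
      exact sub_eq_zero.mp this
    exact Point.add_self_of_Y_eq hy

lemma Tors5.xc_two_nsmul {P : E.Point} (hP : P ≠ 0)
    (hM : Tors5.M E (Tors5.xc E P) ≠ 0) :
    Tors5.xc E (2 • P) * Tors5.M E (Tors5.xc E P) = Tors5.Nm E (Tors5.xc E P) := by
  rcases P with _ | ⟨x, y, h⟩
  · exact absurd rfl hP
  rw [Tors5.xc_some] at hM ⊢
  have hpsi := Tors5.psi_sq E h.1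
  have hy : y ≠ E.negY x y := by
    intro hy
    apply hM
    rw [← hpsi, ← hy, sub_self]; ring
  have hne : y - E.negY x y ≠ 0 := sub_ne_zero.mpr hy
  rw [two_nsmul, Point.add_self_of_Y_ne hy, Tors5.xc_some, slope_of_Y_ne rfl hy, ← hpsi]
  have heq := (equation_iff _ _).mp h.1
  simp only [addX, Tors5.Nm, WeierstrassCurve.b₄, WeierstrassCurve.b₆, WeierstrassCurve.b₈]
  field_simp
  simp only [negY]
  linear_combination (-(8 * x + E.a₁ ^ 2 + 4 * E.a₂)) * heq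

/-- Multiples of a point of exact order five. -/
lemma Tors5.five_torsion_multiples {P : E.Point} (h5 : (5 : ℕ) • P = 0) :
    (3 : ℕ) • P = -((2 : ℕ) • P) ∧ (4 : ℕ) • P = -P ∧ (6 : ℕ) • P = P ∧
      (8 : ℕ) • P = -((2 : ℕ) • P) := by
  refine ⟨?_, ?_, ?_, ?_⟩
  · rw [eq_neg_iff_add_eq_zero, ← h5]; abel
  · rw [eq_neg_iff_add_eq_zero, ← h5]; abel
  · have : (6 : ℕ) • P = (5 : ℕ) • P + P := by abel
    rw [this, h5, zero_add]
  · rw [eq_neg_iff_add_eq_zero]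
    have : (8 : ℕ) • P + (2 : ℕ) • P = (2 : ℕ) • ((5 : ℕ) • P) := by abel
    rw [this, h5, smul_zero]

/-- The key relations for a point of exact order five. -/
lemma Tors5.rel_of_five_torsion {P : E.Point} (hP : P ≠ 0) (h5 : (5 : ℕ) • P = 0) :
    (2 : ℕ) • P ≠ 0 ∧ Tors5.xc E P ≠ Tors5.xc E ((2 : ℕ) • P) ∧
      Tors5.M E (Tors5.xc E P) ≠ 0 ∧ Tors5.M E (Tors5.xc E ((2 : ℕ) • P)) ≠ 0 ∧
      Tors5.xc E ((2 : ℕ) • P) * Tors5.M E (Tors5.xc E P) = Tors5.Nm E (Tors5.xc E P) ∧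
      Tors5.xc E P * Tors5.M E (Tors5.xc E ((2 : ℕ) • P)) =
        Tors5.Nm E (Tors5.xc E ((2 : ℕ) • P)) := by
  obtain ⟨h3, h4, -, -⟩ := Tors5.five_torsion_multiples E h5
  have h2 : (2 : ℕ) • P ≠ 0 := by
    intro h2
    apply hP
    have : P = (5 : ℕ) • P - (2 : ℕ) • ((2 : ℕ) • P) := by abel
    rw [this, h5, h2, smul_zero, sub_zero]
  have h22 : (2 : ℕ) • ((2 : ℕ) • P) = -P := by
    rw [← h4]; abel
  have h22ne : (2 : ℕ) • ((2 : ℕ) • P) ≠ 0 := by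
    rw [h22]; exact neg_ne_zero.mpr hP
  have hM1 : Tors5.M E (Tors5.xc E P) ≠ 0 := fun h => h2 ((Tors5.two_nsmul_eq_zero_iff E hP).mpr h)
  have hM2 : Tors5.M E (Tors5.xc E ((2 : ℕ) • P)) ≠ 0 :=
    fun h => h22ne ((Tors5.two_nsmul_eq_zero_iff E h2).mpr h)
  refine ⟨h2, ?_, hM1, hM2, Tors5.xc_two_nsmul E hP hM1, ?_⟩
  · intro hx
    rcases (Tors5.xc_eq_iff E hP h2).mp hx with h | h
    · apply hP
      have : P = (2 : ℕ) • P - P := by abel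
      rw [this, ← h, sub_self]
    · apply hP
      have h3' : (3 : ℕ) • P = 0 := by
        have : (3 : ℕ) • P = P + (2 : ℕ) • P := by abel
        rw [this]
        nth_rewrite 1 [h]
        rw [neg_add_cancel]
      have : P = (2 : ℕ) • ((3 : ℕ) • P) - (5 : ℕ) • P := by abel
      rw [this, h5, h3', smul_zero, sub_zero]
  · have := Tors5.xc_two_nsmul E h2 hM2
    rw [h22, Tors5.xc_neg] at this
    exact this

end Generic

section Count

open Polynomial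

variable {F : Type*} [Field F] (E : WeierstrassCurve.Affine F)

/-- The cubic as a polynomial. -/
noncomputable def Tors5.Mp : F[X] := C 4 * X ^ 3 + C E.b₂ * X ^ 2 + C (2 * E.b₄) * X + C E.b₆

/-- The quartic as a polynomial. -/
noncomputable def Tors5.Np : F[X] := X ^ 4 - C E.b₄ * X ^ 2 - C (2 * E.b₆) * X - C E.b₈

/-- A degree 16 polynomial vanishing at the x-coordinates of the points of order five. -/
noncomputable def Tors5.Qp : F[X] :=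
  Tors5.Np E ^ 4 - C E.b₄ * Tors5.Np E ^ 2 * Tors5.Mp E ^ 2
    - C (2 * E.b₆) * Tors5.Np E * Tors5.Mp E ^ 3 - C E.b₈ * Tors5.Mp E ^ 4
    - X * Tors5.Mp E * (C 4 * Tors5.Np E ^ 3 + C E.b₂ * Tors5.Np E ^ 2 * Tors5.Mp E
      + C (2 * E.b₄) * Tors5.Np E * Tors5.Mp E ^ 2 + C E.b₆ * Tors5.Mp E ^ 3)

lemma Tors5.eval_Mp (x : F) : (Tors5.Mp E).eval x = Tors5.M E x := by
  simp [Tors5.Mp, Tors5.M]

lemma Tors5.eval_Np (x : F) : (Tors5.Np E).eval x = Tors5.Nm E x := by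
  simp [Tors5.Np, Tors5.Nm]

lemma Tors5.natDegree_Qp [CharZero F] : (Tors5.Qp E).natDegree = 16 := by
  unfold Tors5.Qp Tors5.Np Tors5.Mp
  compute_degree!

lemma Tors5.Qp_ne_zero [CharZero F] : Tors5.Qp E ≠ 0 := by
  intro h
  have := Tors5.natDegree_Qp E
  rw [h, natDegree_zero] at this
  omega

lemma Tors5.Q_alg (b₂ b₄ b₆ b₈ x1 x2 M1 N1 : F) (h1 : x2 * M1 = N1)
    (h2 : x1 * (4 * x2 ^ 3 + b₂ * x2 ^ 2 + 2 * b₄ * x2 + b₆)
      = x2 ^ 4 - b₄ * x2 ^ 2 - 2 * b₆ * x2 - b₈) :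
    N1 ^ 4 - b₄ * N1 ^ 2 * M1 ^ 2 - 2 * b₆ * N1 * M1 ^ 3 - b₈ * M1 ^ 4
      - x1 * M1 * (4 * N1 ^ 3 + b₂ * N1 ^ 2 * M1 + 2 * b₄ * N1 * M1 ^ 2 + b₆ * M1 ^ 3) = 0 := by
  subst h1
  linear_combination (-(M1 ^ 4)) * h2

variable [DecidableEq F]

lemma Tors5.eval_Qp_eq_zero {P : E.Point} (hP : P ≠ 0) (h5 : (5 : ℕ) • P = 0) :
    (Tors5.Qp E).eval (Tors5.xc E P) = 0 := by
  obtain ⟨-, -, -, -, h1, h2⟩ := Tors5.rel_of_five_torsion E hP h5
  have := Tors5.Q_alg E.b₂ E.b₄ E.b₆ E.b₈ (Tors5.xc E P) (Tors5.xc E ((2 : ℕ) • P))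
    (Tors5.M E (Tors5.xc E P)) (Tors5.Nm E (Tors5.xc E P)) h1 h2
  simp only [Tors5.Qp, eval_sub, eval_add, eval_mul, eval_pow, eval_C, eval_X, Tors5.eval_Mp,
    Tors5.eval_Np]
  exact this

lemma Tors5.five_torsion_finite [CharZero F] :
    Set.Finite {P : E.Point | (5 : ℕ) • P = 0} ∧
      Set.ncard {P : E.Point | (5 : ℕ) • P = 0} ≤ 33 := by
  classical
  set R : Finset F := (Tors5.Qp E).roots.toFinset with hR
  have hRcard : R.card ≤ 16 := by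
    calc R.card ≤ Multiset.card (Tors5.Qp E).roots := Multiset.toFinset_card_le _
      _ ≤ (Tors5.Qp E).natDegree := card_roots' _
      _ = 16 := Tors5.natDegree_Qp E
  let g : F × Bool → E.Point := fun p =>
    if h : ∃ P : E.Point, P ≠ 0 ∧ Tors5.xc E P = p.1 then
      (if p.2 then h.choose else -h.choose) else 0
  have hsub : {P : E.Point | (5 : ℕ) • P = 0} ⊆
      insert 0 (g '' ((R ×ˢ (Finset.univ : Finset Bool) : Finset (F × Bool)) : Set (F × Bool))) := by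
    intro P hP
    by_cases h0 : P = 0
    · exact Or.inl h0
    · right
      have hroot : Tors5.xc E P ∈ R := by
        rw [hR, Multiset.mem_toFinset, mem_roots (Tors5.Qp_ne_zero E)]
        exact Tors5.eval_Qp_eq_zero E h0 hP
      have hex : ∃ P' : E.Point, P' ≠ 0 ∧ Tors5.xc E P' = Tors5.xc E P := ⟨P, h0, rfl⟩
      rcases (Tors5.xc_eq_iff E h0 hex.choose_spec.1).mp hex.choose_spec.2.symm with h | h
      · refine ⟨(Tors5.xc E P, true), ?_, ?_⟩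
        · simp [hroot]
        · simp only [g, dif_pos hex, if_true]
          exact h.symm
      · refine ⟨(Tors5.xc E P, false), ?_, ?_⟩
        · simp [hroot]
        · simp only [g, dif_pos hex]
          exact (if_neg (by simp)).trans h.symm
  have hfin : (insert 0 (g '' ((R ×ˢ (Finset.univ : Finset Bool) : Finset (F × Bool)) :
      Set (F × Bool))) : Set E.Point).Finite :=
    Set.Finite.insert _ (Set.Finite.image _ (Finset.finite_toSet _))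
  refine ⟨hfin.subset hsub, ?_⟩
  calc Set.ncard {P : E.Point | (5 : ℕ) • P = 0}
      ≤ Set.ncard (insert 0 (g '' ((R ×ˢ (Finset.univ : Finset Bool) : Finset (F × Bool)) :
          Set (F × Bool))) : Set E.Point) := Set.ncard_le_ncard hsub hfin
    _ ≤ Set.ncard (g '' ((R ×ˢ (Finset.univ : Finset Bool) : Finset (F × Bool)) :
          Set (F × Bool))) + 1 := Set.ncard_insert_le _ _
    _ ≤ Set.ncard ((R ×ˢ (Finset.univ : Finset Bool) : Finset (F × Bool)) :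
          Set (F × Bool)) + 1 := by
        gcongr
        exact Set.ncard_image_le (Finset.finite_toSet _)
    _ = R.card * 2 + 1 := by
        rw [Set.ncard_coe_finset, Finset.card_product, Finset.card_univ, Fintype.card_bool]
    _ ≤ 33 := by omega

end Count

/-- A proper nonzero subspace of a `ZMod 5`-vector space with fewer than `125` elements
is a line. -/
lemma Tors5.line_of_proper {V : Type*} [AddCommGroup V] [Module (ZMod 5) V] [Finite V]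
    (hcard : Nat.card V < 125) (N : Submodule (ZMod 5) V) (hbot : N ≠ ⊥) (htop : N ≠ ⊤) :
    ∃ v : V, v ∈ N ∧ v ≠ 0 ∧ ∀ w ∈ N, ∃ c : ZMod 5, w = c • v := by
  have : Fact (Nat.Prime 5) := ⟨by norm_num⟩
  have : Module.Finite (ZMod 5) V := Module.Finite.of_finite
  have hc : Nat.card V = 5 ^ Module.finrank (ZMod 5) V := by
    rw [Module.natCard_eq_pow_finrank (K := ZMod 5), Nat.card_zmod]
  have hd : Module.finrank (ZMod 5) V < 3 := by
    by_contra hge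
    rw [not_lt] at hge
    have : 5 ^ 3 ≤ 5 ^ Module.finrank (ZMod 5) V := Nat.pow_le_pow_right (by norm_num) hge
    omega
  have hN : Module.finrank (ZMod 5) N < Module.finrank (ZMod 5) V := Submodule.finrank_lt htop
  have hN0 : Module.finrank (ZMod 5) N ≠ 0 := by
    intro h0
    apply hbot
    exact Submodule.finrank_eq_zero.mp h0
  have hN1 : Module.finrank (ZMod 5) N = 1 := by omega
  obtain ⟨v, hv, hspan⟩ := finrank_eq_one_iff'.mp hN1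
  refine ⟨v, v.2, fun h => hv (Subtype.ext h), fun w hw => ?_⟩
  obtain ⟨c, hc⟩ := hspan ⟨w, hw⟩
  exact ⟨c, by rw [← Submodule.coe_smul, hc]⟩

section Construct

open Polynomial

variable {F : Type*} [Field F] [CharZero F] (E : WeierstrassCurve.Affine F)

/-- From the two duplication relations to the `(s, ρ)`-relations. -/
lemma Tors5.rel_of_x (x1 x2 : F) (hne : x1 ≠ x2)
    (h1 : x2 * Tors5.M E x1 = Tors5.Nm E x1) (h2 : x1 * Tors5.M E x2 = Tors5.Nm E x2) :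
    E.b₆ + 2 * ((x1 + x2) / 2) * E.b₄ + ((x1 + x2) / 2) ^ 2 * E.b₂ + 4 * ((x1 + x2) / 2) ^ 3
        = (E.b₂ + 12 * ((x1 + x2) / 2)) * ((x1 - x2) / 2) ^ 2 ∧
      E.b₈ + 3 * ((x1 + x2) / 2) * E.b₆ + 3 * ((x1 + x2) / 2) ^ 2 * E.b₄
          + ((x1 + x2) / 2) ^ 3 * E.b₂ + 3 * ((x1 + x2) / 2) ^ 4
        = 5 * (((x1 - x2) / 2) ^ 2) ^ 2
          + (E.b₄ + ((x1 + x2) / 2) * E.b₂ + 6 * ((x1 + x2) / 2) ^ 2) * ((x1 - x2) / 2) ^ 2 := by
  simp only [Tors5.M, Tors5.Nm] at h1 h2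
  have hd : x1 - x2 ≠ 0 := sub_ne_zero.mpr hne
  constructor
  · have : (x1 - x2) * (E.b₆ + 2 * ((x1 + x2) / 2) * E.b₄ + ((x1 + x2) / 2) ^ 2 * E.b₂
        + 4 * ((x1 + x2) / 2) ^ 3 - (E.b₂ + 12 * ((x1 + x2) / 2)) * ((x1 - x2) / 2) ^ 2) = 0 := by
      linear_combination h1 - h2
    exact sub_eq_zero.mp ((mul_eq_zero.mp this).resolve_left hd)
  · linear_combination (1 / 2) * h1 + (1 / 2) * h2

omit [CharZero F] in
/-- From the `(s, ρ)`-relations (with `ρ = r * r`) to the two duplication relations. -/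
lemma Tors5.x_of_rel (s r : F)
    (rel1 : E.b₆ + 2 * s * E.b₄ + s ^ 2 * E.b₂ + 4 * s ^ 3 = (E.b₂ + 12 * s) * (r * r))
    (rel2 : E.b₈ + 3 * s * E.b₆ + 3 * s ^ 2 * E.b₄ + s ^ 3 * E.b₂ + 3 * s ^ 4
      = 5 * (r * r) ^ 2 + (E.b₄ + s * E.b₂ + 6 * s ^ 2) * (r * r)) :
    (s - r) * Tors5.M E (s + r) = Tors5.Nm E (s + r) ∧
      (s + r) * Tors5.M E (s - r) = Tors5.Nm E (s - r) := by
  simp only [Tors5.M, Tors5.Nm]
  constructor
  · linear_combination rel2 + r * rel1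
  · linear_combination rel2 - r * rel1

variable [IsAlgClosed F]

omit E in
lemma Tors5.exists_rho_aux (B2 B4 B6 B8 : F)
    (hs : B8 * B2 ^ 2 - 5 * B6 ^ 2 - B4 * B6 * B2 = 0) (hdeg : B6 = 0 → B8 = 0 → False) :
    ∃ ρ : F, ρ ≠ 0 ∧ B6 = B2 * ρ ∧ B8 = 5 * ρ ^ 2 + B4 * ρ := by
  by_cases hB2 : B2 = 0
  · have h6 : B6 = 0 := by
      have h : B6 ^ 2 = 0 := by
        rw [hB2] at hs
        linear_combination (-1 / 5 : F) * hs
      exact pow_eq_zero_iff (two_ne_zero) |>.mp h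
    obtain ⟨w, hw⟩ := IsAlgClosed.exists_eq_mul_self (discrim (5 : F) B4 (-B8))
    obtain ⟨ρ, hρ⟩ := exists_quadratic_eq_zero (a := (5 : F)) (by norm_num) ⟨w, hw⟩
    refine ⟨ρ, ?_, ?_, ?_⟩
    · rintro rfl
      exact hdeg h6 (by linear_combination -hρ)
    · rw [h6, hB2, zero_mul]
    · linear_combination -hρ
  · obtain ⟨ρ, hρ⟩ : ∃ ρ : F, B6 = B2 * ρ := ⟨B6 / B2, (mul_div_cancel₀ _ hB2).symm⟩
    have h8 : B2 ^ 2 * (B8 - (5 * ρ ^ 2 + B4 * ρ)) = 0 := by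
      rw [hρ] at hs
      linear_combination hs
    have h8' : B8 = 5 * ρ ^ 2 + B4 * ρ :=
      sub_eq_zero.mp ((mul_eq_zero.mp h8).resolve_left (pow_ne_zero 2 hB2))
    refine ⟨ρ, ?_, hρ, h8'⟩
    rintro rfl
    exact hdeg (by rw [hρ, mul_zero]) (by rw [h8']; ring)

lemma Tors5.exists_s_rho (hΔ : E.Δ ≠ 0) : ∃ s ρ : F, ρ ≠ 0 ∧
    E.b₆ + 2 * s * E.b₄ + s ^ 2 * E.b₂ + 4 * s ^ 3 = (E.b₂ + 12 * s) * ρ ∧
    E.b₈ + 3 * s * E.b₆ + 3 * s ^ 2 * E.b₄ + s ^ 3 * E.b₂ + 3 * s ^ 4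
      = 5 * ρ ^ 2 + (E.b₄ + s * E.b₂ + 6 * s ^ 2) * ρ := by
  have hdegen : ∀ s : F, E.b₆ + 2 * s * E.b₄ + s ^ 2 * E.b₂ + 4 * s ^ 3 = 0 →
      E.b₈ + 3 * s * E.b₆ + 3 * s ^ 2 * E.b₄ + s ^ 3 * E.b₂ + 3 * s ^ 4 = 0 → False := by
    intro s h6 h8
    refine hΔ (Tors5.res_identity E s ?_ ?_)
    · simp only [Tors5.M]; linear_combination h6
    · simp only [Tors5.Nm]; linear_combination s * h6 - h8
  let p : F[X] := C 64 * X ^ 6 + C (32 * E.b₂) * X ^ 5 + C (160 * E.b₄) * X ^ 4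
    + C (320 * E.b₆) * X ^ 3 + C (44 * E.b₂ * E.b₆ - 44 * E.b₄ ^ 2 + 144 * E.b₈) * X ^ 2
    + C (2 * E.b₂ ^ 2 * E.b₆ - 2 * E.b₂ * E.b₄ ^ 2 + 24 * E.b₂ * E.b₈ - 32 * E.b₄ * E.b₆) * X
    + C (E.b₂ ^ 2 * E.b₈ - E.b₂ * E.b₄ * E.b₆ - 5 * E.b₆ ^ 2)
  have hdeg : p.natDegree = 6 := by
    simp only [p]
    compute_degree!
  have hdeg' : p.degree ≠ 0 := fun h => by
    have h0 : p.natDegree = 0 := natDegree_eq_zero_iff_degree_le_zero.mpr h.le
    omega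
  obtain ⟨s, hs⟩ := IsAlgClosed.exists_root p hdeg'
  have hs' : (E.b₈ + 3 * s * E.b₆ + 3 * s ^ 2 * E.b₄ + s ^ 3 * E.b₂ + 3 * s ^ 4)
        * (E.b₂ + 12 * s) ^ 2
      - 5 * (E.b₆ + 2 * s * E.b₄ + s ^ 2 * E.b₂ + 4 * s ^ 3) ^ 2
      - (E.b₄ + s * E.b₂ + 6 * s ^ 2) * (E.b₆ + 2 * s * E.b₄ + s ^ 2 * E.b₂ + 4 * s ^ 3)
        * (E.b₂ + 12 * s) = 0 := by
    have := hs
    simp only [p, IsRoot.def, eval_add, eval_mul, eval_C, eval_pow, eval_X] at this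
    linear_combination this
  obtain ⟨ρ, hρ, h6, h8⟩ := Tors5.exists_rho_aux _ _ _ _ hs' (hdegen s)
  exact ⟨s, ρ, hρ, h6, h8⟩

lemma Tors5.exists_nonsingular (hΔ : E.Δ ≠ 0) (x : F) : ∃ y, E.Nonsingular x y := by
  obtain ⟨w, hw⟩ := IsAlgClosed.exists_eq_mul_self (Tors5.M E x)
  obtain ⟨y, hy⟩ : ∃ y : F, 2 * y + E.a₁ * x + E.a₃ = w :=
    ⟨(w - E.a₁ * x - E.a₃) / 2, by ring⟩
  refine ⟨y, (equation_iff_nonsingular_of_Δ_ne_zero hΔ).mp ?_⟩
  rw [equation_iff]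
  simp only [Tors5.M, WeierstrassCurve.b₂, WeierstrassCurve.b₄, WeierstrassCurve.b₆] at hw
  linear_combination (1 / 4 : F) * (2 * y + E.a₁ * x + E.a₃ + w) * hy - (1 / 4 : F) * hw

variable [DecidableEq F]

/-- Over an algebraically closed field of characteristic zero an elliptic curve has a point
of exact order five. -/
lemma Tors5.exists_five_torsion (hΔ : E.Δ ≠ 0) :
    ∃ P : E.Point, P ≠ 0 ∧ (5 : ℕ) • P = 0 := by
  obtain ⟨s, ρ, hρ, rel1, rel2⟩ := Tors5.exists_s_rho E hΔ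
  obtain ⟨r, hr⟩ := IsAlgClosed.exists_eq_mul_self ρ
  subst hr
  have hr0 : r ≠ 0 := fun h => hρ (by rw [h, mul_zero])
  obtain ⟨h1, h2⟩ := Tors5.x_of_rel E s r rel1 rel2
  have hM1 : Tors5.M E (s + r) ≠ 0 := fun h =>
    hΔ (Tors5.res_identity E _ h (by rw [← h1, h, mul_zero]))
  have hM2 : Tors5.M E (s - r) ≠ 0 := fun h =>
    hΔ (Tors5.res_identity E _ h (by rw [← h2, h, mul_zero]))
  obtain ⟨y, hy⟩ := Tors5.exists_nonsingular E hΔ (s + r)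
  set P : E.Point := Point.some (s + r) y hy with hPdef
  have hP : P ≠ 0 := Point.some_ne_zero hy
  have hx1 : Tors5.xc E P = s + r := rfl
  have h2P : (2 : ℕ) • P ≠ 0 := fun h =>
    hM1 (by rw [← hx1]; exact (Tors5.two_nsmul_eq_zero_iff E hP).mp h)
  have hx2 : Tors5.xc E ((2 : ℕ) • P) = s - r := by
    have := Tors5.xc_two_nsmul E hP (by rw [hx1]; exact hM1)
    rw [hx1, ← h1] at this
    exact mul_right_cancel₀ hM1 this
  have h4P : (2 : ℕ) • ((2 : ℕ) • P) ≠ 0 := fun h =>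
    hM2 (by rw [← hx2]; exact (Tors5.two_nsmul_eq_zero_iff E h2P).mp h)
  have hx4 : Tors5.xc E ((2 : ℕ) • ((2 : ℕ) • P)) = s + r := by
    have := Tors5.xc_two_nsmul E h2P (by rw [hx2]; exact hM2)
    rw [hx2, ← h2] at this
    exact mul_right_cancel₀ hM2 this
  refine ⟨P, hP, ?_⟩
  rcases (Tors5.xc_eq_iff E h4P hP).mp (hx4.trans hx1.symm) with h | h
  · exfalso
    have h' : (2 : ℕ) • P = -P := by
      rw [eq_neg_iff_add_eq_zero]
      have : (2 : ℕ) • P + P = (2 : ℕ) • ((2 : ℕ) • P) - P := by abel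
      rw [this, h, sub_self]
    have hx : s - r = s + r := by
      rw [← hx2, h', Tors5.xc_neg, hx1]
    apply hr0
    have : (2 : F) * r = 0 := by linear_combination -hx
    exact (mul_eq_zero.mp this).resolve_left two_ne_zero
  · have : (5 : ℕ) • P = (2 : ℕ) • ((2 : ℕ) • P) + P := by abel
    rw [this, h, neg_add_cancel]

end Construct

section Torsion

variable {F : Type*} [Field F] [DecidableEq F] (E : WeierstrassCurve.Affine F)

lemma Tors5.mem_torsionBy_iff (P : E.Point) :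
    P ∈ Submodule.torsionBy ℤ E.Point ((5 : ℕ) : ℤ) ↔ (5 : ℕ) • P = 0 := by
  rw [Submodule.mem_torsionBy_iff, natCast_zsmul]

lemma Tors5.card_torsion [CharZero F] :
    Finite (Submodule.torsionBy ℤ E.Point ((5 : ℕ) : ℤ)) ∧
      Nat.card (Submodule.torsionBy ℤ E.Point ((5 : ℕ) : ℤ)) < 125 := by
  obtain ⟨hfin, hcard⟩ := Tors5.five_torsion_finite E
  have hset : ((Submodule.torsionBy ℤ E.Point ((5 : ℕ) : ℤ) : Submodule ℤ E.Point) :
      Set E.Point) = {P : E.Point | (5 : ℕ) • P = 0} := by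
    ext P
    exact Tors5.mem_torsionBy_iff E P
  rw [← hset] at hfin hcard
  have hF : Finite (Submodule.torsionBy ℤ E.Point ((5 : ℕ) : ℤ)) := hfin.to_subtype
  refine ⟨hF, ?_⟩
  have : Nat.card (Submodule.torsionBy ℤ E.Point ((5 : ℕ) : ℤ)) =
      Set.ncard ((Submodule.torsionBy ℤ E.Point ((5 : ℕ) : ℤ) : Submodule ℤ E.Point) :
        Set E.Point) := Nat.card_coe_set_eq _
  omega

/-- For a point `P` of exact order five, a nonzero multiple `Q` has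
`{x(Q), x(2Q)} = {x(P), x(2P)}` in one of the two orders. -/
lemma Tors5.perm_of_multiple {P : E.Point} (h5 : (5 : ℕ) • P = 0) (k : ℕ)
    (hk : k • P ≠ 0) :
    (Tors5.xc E (k • P) = Tors5.xc E P ∧
        Tors5.xc E ((2 : ℕ) • (k • P)) = Tors5.xc E ((2 : ℕ) • P)) ∨
      (Tors5.xc E (k • P) = Tors5.xc E ((2 : ℕ) • P) ∧
        Tors5.xc E ((2 : ℕ) • (k • P)) = Tors5.xc E P) := by
  obtain ⟨h3, h4, h6, h8⟩ := Tors5.five_torsion_multiples E h5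
  have hmod : k • P = (k % 5) • P := by
    conv_lhs => rw [← Nat.div_add_mod k 5, add_nsmul, mul_nsmul, h5, smul_zero, zero_add]
  rw [hmod] at hk ⊢
  have hlt : k % 5 < 5 := Nat.mod_lt _ (by norm_num)
  generalize k % 5 = m at hk hlt ⊢
  interval_cases m
  · exact absurd (zero_nsmul P) hk
  · left
    rw [one_nsmul]
    exact ⟨rfl, rfl⟩
  · right
    refine ⟨rfl, ?_⟩
    have : (2 : ℕ) • ((2 : ℕ) • P) = (4 : ℕ) • P := by abel
    rw [this, h4, Tors5.xc_neg]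
  · right
    have : (2 : ℕ) • ((3 : ℕ) • P) = (6 : ℕ) • P := by abel
    rw [this, h6, h3, Tors5.xc_neg]
    exact ⟨rfl, rfl⟩
  · left
    have : (2 : ℕ) • ((4 : ℕ) • P) = (8 : ℕ) • P := by abel
    rw [this, h8, h4, Tors5.xc_neg, Tors5.xc_neg]
    exact ⟨rfl, rfl⟩

end Torsion

section Assembly

open WeierstrassCurve.Affine.Point

/-- The algebraic closure of `ℚ` is Galois over `ℚ` (for the canonical `ℚ`-algebra
structure of a characteristic zero field). -/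
lemma Tors5.isGalois : IsGalois ℚ (AlgebraicClosure ℚ) := by
  have h : (DivisionRing.toRatAlgebra : Algebra ℚ (AlgebraicClosure ℚ)) =
      AlgebraicClosure.instAlgebra ℚ := Subsingleton.elim _ _
  rw [h]
  infer_instance

lemma Tors5.rat_of_fixed (z : AlgebraicClosure ℚ)
    (hz : ∀ σ : AlgebraicClosure ℚ ≃ₐ[ℚ] AlgebraicClosure ℚ, σ z = z) :
    ∃ q : ℚ, algebraMap ℚ (AlgebraicClosure ℚ) q = z := by
  have := Tors5.isGalois
  exact (InfiniteGalois.mem_range_algebraMap_iff_fixed z).mpr hz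

lemma Tors5.xc_smul (W' : WeierstrassCurve.Affine ℚ)
    (σ : AlgebraicClosure ℚ ≃ₐ[ℚ] AlgebraicClosure ℚ) (P : (W'⁄(AlgebraicClosure ℚ)).Point) :
    Tors5.xc (W'⁄(AlgebraicClosure ℚ)) (σ • P) = σ (Tors5.xc (W'⁄(AlgebraicClosure ℚ)) P) := by
  rcases P with _ | ⟨x, y, h⟩
  · exact (_root_.map_zero σ).symm
  · rfl

lemma Tors5.smul_nsmul (W' : WeierstrassCurve.Affine ℚ)
    (σ : AlgebraicClosure ℚ ≃ₐ[ℚ] AlgebraicClosure ℚ) (n : ℕ)
    (P : (W'⁄(AlgebraicClosure ℚ)).Point) : σ • (n • P) = n • (σ • P) :=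
  (Point.map σ.toAlgHom).map_nsmul n P

/-- The main statement for a Weierstrass curve over `ℚ`. -/
theorem Tors5.main (Wq : WeierstrassCurve.Affine ℚ) (hΔ : Wq.Δ ≠ 0)
    (h : ¬ WeierstrassCurve.Affine.Point.GaloisRepIsIrreducible (K := AlgebraicClosure ℚ) ℚ Wq 5) :
    ∃ s ρ : ℚ, ρ ≠ 0 ∧
      Wq.b₆ + 2 * s * Wq.b₄ + s ^ 2 * Wq.b₂ + 4 * s ^ 3 = (Wq.b₂ + 12 * s) * ρ ∧
      Wq.b₈ + 3 * s * Wq.b₆ + 3 * s ^ 2 * Wq.b₄ + s ^ 3 * Wq.b₂ + 3 * s ^ 4 =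
        5 * ρ ^ 2 + (Wq.b₄ + s * Wq.b₂ + 6 * s ^ 2) * ρ := by
  have hb2 : (Wq⁄(AlgebraicClosure ℚ)).b₂ = algebraMap ℚ (AlgebraicClosure ℚ) Wq.b₂ :=
    WeierstrassCurve.map_b₂ Wq _
  have hb4 : (Wq⁄(AlgebraicClosure ℚ)).b₄ = algebraMap ℚ (AlgebraicClosure ℚ) Wq.b₄ :=
    WeierstrassCurve.map_b₄ Wq _
  have hb6 : (Wq⁄(AlgebraicClosure ℚ)).b₆ = algebraMap ℚ (AlgebraicClosure ℚ) Wq.b₆ :=
    WeierstrassCurve.map_b₆ Wq _
  have hb8 : (Wq⁄(AlgebraicClosure ℚ)).b₈ = algebraMap ℚ (AlgebraicClosure ℚ) Wq.b₈ :=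
    WeierstrassCurve.map_b₈ Wq _
  have hΔE : (Wq⁄(AlgebraicClosure ℚ)).Δ ≠ 0 := by
    have : (Wq⁄(AlgebraicClosure ℚ)).Δ = algebraMap ℚ (AlgebraicClosure ℚ) Wq.Δ :=
      WeierstrassCurve.map_Δ Wq _
    rw [this]
    exact (map_ne_zero _).mpr hΔ
  obtain ⟨hfin, hcard⟩ := Tors5.card_torsion (Wq⁄(AlgebraicClosure ℚ))
  have hnt : Nontrivial
      (Submodule.torsionBy ℤ (Wq⁄(AlgebraicClosure ℚ)).Point ((5 : ℕ) : ℤ)) := by
    obtain ⟨P, hP, h5⟩ := Tors5.exists_five_torsion (Wq⁄(AlgebraicClosure ℚ)) hΔE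
    exact ⟨⟨⟨P, (Tors5.mem_torsionBy_iff _ P).mpr h5⟩, 0,
      fun h => hP (congrArg Subtype.val h)⟩⟩
  have hN : ∃ N : Submodule (ZMod 5)
      (Submodule.torsionBy ℤ (Wq⁄(AlgebraicClosure ℚ)).Point ((5 : ℕ) : ℤ)),
      IsGaloisStable ℚ N ∧ N ≠ ⊥ ∧ N ≠ ⊤ := by
    by_contra hcon
    apply h
    refine ⟨hnt, fun N hN => ?_⟩
    by_contra hN'
    rw [not_or] at hN'
    exact hcon ⟨N, hN, hN'.1, hN'.2⟩
  obtain ⟨N, hstab, hbot, htop⟩ := hN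
  obtain ⟨v, hvN, hv0, hspan⟩ := Tors5.line_of_proper hcard N hbot htop
  have hP : (v : (Wq⁄(AlgebraicClosure ℚ)).Point) ≠ 0 := fun h => hv0 (Subtype.ext h)
  have h5 : (5 : ℕ) • (v : (Wq⁄(AlgebraicClosure ℚ)).Point) = 0 :=
    (Tors5.mem_torsionBy_iff _ _).mp v.2
  obtain ⟨h2P, hne, hM1, hM2, r1, r2⟩ := Tors5.rel_of_five_torsion _ hP h5
  have hperm : ∀ σ : AlgebraicClosure ℚ ≃ₐ[ℚ] AlgebraicClosure ℚ,
      (σ (Tors5.xc _ (v : (Wq⁄(AlgebraicClosure ℚ)).Point)) = Tors5.xc _ (v : (Wq⁄(AlgebraicClosure ℚ)).Point) ∧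
        σ (Tors5.xc _ ((2 : ℕ) • (v : (Wq⁄(AlgebraicClosure ℚ)).Point)))
          = Tors5.xc _ ((2 : ℕ) • (v : (Wq⁄(AlgebraicClosure ℚ)).Point))) ∨
      (σ (Tors5.xc _ (v : (Wq⁄(AlgebraicClosure ℚ)).Point))
          = Tors5.xc _ ((2 : ℕ) • (v : (Wq⁄(AlgebraicClosure ℚ)).Point)) ∧
        σ (Tors5.xc _ ((2 : ℕ) • (v : (Wq⁄(AlgebraicClosure ℚ)).Point)))
          = Tors5.xc _ (v : (Wq⁄(AlgebraicClosure ℚ)).Point)) := by
    intro σ
    obtain ⟨c, hc⟩ := hspan (σ • v) (hstab σ v hvN)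
    have hσP : σ • (v : (Wq⁄(AlgebraicClosure ℚ)).Point)
        = c.val • (v : (Wq⁄(AlgebraicClosure ℚ)).Point) := by
      have h1 : ((σ • v : Submodule.torsionBy ℤ (Wq⁄(AlgebraicClosure ℚ)).Point ((5 : ℕ) : ℤ)) :
          (Wq⁄(AlgebraicClosure ℚ)).Point) = σ • (v : (Wq⁄(AlgebraicClosure ℚ)).Point) := rfl
      have h2 : c • v = c.val • v := by
        conv_lhs => rw [← ZMod.natCast_zmod_val c]
        exact Nat.cast_smul_eq_nsmul (ZMod 5) c.val v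
      rw [← h1, hc, h2]
      rfl
    have hσP0 : c.val • (v : (Wq⁄(AlgebraicClosure ℚ)).Point) ≠ 0 := by
      rw [← hσP]
      intro h0
      apply hP
      have := congrArg (fun Q => σ⁻¹ • Q) h0
      simpa using this
    rw [← Tors5.xc_smul, ← Tors5.xc_smul, Tors5.smul_nsmul, hσP]
    exact Tors5.perm_of_multiple _ h5 c.val hσP0
  generalize Tors5.xc _ (v : (Wq⁄(AlgebraicClosure ℚ)).Point) = x1 at hne hM1 hM2 r1 r2 hperm
  generalize Tors5.xc _ ((2 : ℕ) • (v : (Wq⁄(AlgebraicClosure ℚ)).Point)) = x2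
    at hne hM1 hM2 r1 r2 hperm
  have hs_fixed : ∀ σ : AlgebraicClosure ℚ ≃ₐ[ℚ] AlgebraicClosure ℚ,
      σ ((x1 + x2) / 2) = (x1 + x2) / 2 := by
    intro σ
    rcases hperm σ with ⟨a, b⟩ | ⟨a, b⟩
    · rw [map_div₀, map_add, a, b, map_ofNat]
    · rw [map_div₀, map_add, a, b, map_ofNat, add_comm]
  have hρ_fixed : ∀ σ : AlgebraicClosure ℚ ≃ₐ[ℚ] AlgebraicClosure ℚ,
      σ (((x1 - x2) / 2) ^ 2) = ((x1 - x2) / 2) ^ 2 := by
    intro σ
    rcases hperm σ with ⟨a, b⟩ | ⟨a, b⟩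
    · rw [map_pow, map_div₀, map_sub, a, b, map_ofNat]
    · rw [map_pow, map_div₀, map_sub, a, b, map_ofNat]
      ring
  obtain ⟨s, hs⟩ := Tors5.rat_of_fixed _ hs_fixed
  obtain ⟨ρ, hρ⟩ := Tors5.rat_of_fixed _ hρ_fixed
  obtain ⟨rel1, rel2⟩ := Tors5.rel_of_x _ x1 x2 hne r1 r2
  rw [← hs, ← hρ, hb2, hb4, hb6] at rel1
  rw [← hs, ← hρ, hb2, hb4, hb6, hb8] at rel2
  refine ⟨s, ρ, ?_, ?_, ?_⟩
  · rintro rfl
    rw [_root_.map_zero] at hρ
    have h0 : (x1 - x2) / 2 = 0 := pow_eq_zero_iff (two_ne_zero) |>.mp hρ.symm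
    have h1 : x1 - x2 = 0 := by
      rcases div_eq_zero_iff.mp h0 with h | h
      · exact h
      · exact absurd h two_ne_zero
    exact hne (sub_eq_zero.mp h1)
  · apply (algebraMap ℚ (AlgebraicClosure ℚ)).injective
    simp only [map_add, map_mul, map_pow, map_ofNat]
    exact rel1
  · apply (algebraMap ℚ (AlgebraicClosure ℚ)).injective
    simp only [map_add, map_mul, map_pow, map_ofNat]
    exact rel2

theorem exists_rat_pair_of_not_irr5 (W : WeierstrassCurve ℤ) (hΔ : W.Δ ≠ 0)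
    (h : ¬ W.ModRepIsIrreducible 5) :
    ∃ s ρ : ℚ, ρ ≠ 0 ∧
      (W.b₆ : ℚ) + 2 * s * W.b₄ + s ^ 2 * W.b₂ + 4 * s ^ 3 = ((W.b₂ : ℚ) + 12 * s) * ρ ∧
      (W.b₈ : ℚ) + 3 * s * W.b₆ + 3 * s ^ 2 * W.b₄ + s ^ 3 * W.b₂ + 3 * s ^ 4 =
        5 * ρ ^ 2 + ((W.b₄ : ℚ) + s * W.b₂ + 6 * s ^ 2) * ρ := by
  have hΔq : (W.map (Int.castRingHom ℚ)).Δ ≠ 0 := by
    rw [WeierstrassCurve.map_Δ, eq_intCast]
    exact_mod_cast hΔ
  obtain ⟨s, ρ, hρ, h6, h8⟩ := Tors5.main (W.map (Int.castRingHom ℚ)) hΔq h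
  simp only [WeierstrassCurve.map_b₂, WeierstrassCurve.map_b₄, WeierstrassCurve.map_b₆,
    WeierstrassCurve.map_b₈, eq_intCast] at h6 h8
  exact ⟨s, ρ, hρ, h6, h8⟩

end Assembly

end Fermat.Agent.S51
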